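import Mathlib
import Fermat.Agent.FrobProfinite
import Fermat.Agent.GalRep.Interface

/-!
# Item 71/72: bridge from weak Chebotarev for number fields (T1) to the Prelude's language (T2)

`weakCheb_of_weakChebNF : WeakChebNF → WeakCheb`.
-/

set_option autoImplicit false

open NumberField

namespace Fermat.Agent.GalRep

open Fermat.Agent.FrobLib (ZBar valuationSubringOfPrime)

/-- T1 (helper14's `Fermat.Agent.Cheb.weak_chebotarev`) as a `Prop`, at universe 0. -/
def WeakChebNF : Prop :=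
  ∀ (K : Type) [Field K] [NumberField K] [IsGalois ℚ K] (σ : Gal(K/ℚ)) (S : Finset ℕ),
    ∃ (ℓ : ℕ) (P : Ideal (𝓞 K)) (τ : Gal(K/ℚ)), ℓ.Prime ∧ ℓ ∉ S ∧ P.IsPrime ∧ (ℓ : 𝓞 K) ∈ P ∧
      P.inertia Gal(K/ℚ) = ⊥ ∧ IsArithFrobAt ℤ τ P ∧
      Subgroup.zpowers τ = Subgroup.zpowers σ

section Incl

variable (K : IntermediateField ℚ (AlgebraicClosure ℚ))

/-- The inclusion of the ring of integers of `K` into `ℤ̄`. -/
noncomputable def bridgeIncl : 𝓞 K →+* ZBar where
  toFun x := ⟨((x : K) : AlgebraicClosure ℚ), by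
    have h : IsIntegral ℤ (x : K) := x.2
    exact h.map (K.val.restrictScalars ℤ)⟩
  map_one' := by ext; simp
  map_mul' x y := by ext; simp
  map_zero' := by ext; simp
  map_add' x y := by ext; simp

@[simp] theorem coe_bridgeIncl (x : 𝓞 K) :
    ((bridgeIncl K x : ZBar) : AlgebraicClosure ℚ) = ((x : K) : AlgebraicClosure ℚ) := rfl

theorem bridgeIncl_injective : Function.Injective (bridgeIncl K) := by
  intro x y h
  have h1 := congrArg (fun b : ZBar => (b : AlgebraicClosure ℚ)) h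
  simp only [coe_bridgeIncl] at h1
  exact RingOfIntegers.ext (Subtype.ext h1)

/-- lying over: a prime of `ℤ̄` above a given prime of `𝓞 K`. -/
theorem exists_prime_over (P : Ideal (𝓞 K)) [P.IsPrime] :
    ∃ Q : Ideal ZBar, Q.IsPrime ∧ Q.comap (bridgeIncl K) = P := by
  let _ : Algebra (𝓞 K) ZBar := (bridgeIncl K).toAlgebra
  have : IsScalarTower ℤ (𝓞 K) ZBar := IsScalarTower.of_algebraMap_eq' (Subsingleton.elim _ _)
  have hinj : Function.Injective (algebraMap (𝓞 K) ZBar) := bridgeIncl_injective K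
  have : Algebra.IsIntegral (𝓞 K) ZBar := by
    refine ⟨fun b => ?_⟩
    have hb : IsIntegral ℤ b := by
      have := b.2
      exact (isIntegral_algebraMap_iff (B := AlgebraicClosure ℚ)
        (Subtype.val_injective : Function.Injective (algebraMap ZBar (AlgebraicClosure ℚ)))).mp
        this
    exact hb.tower_top
  obtain ⟨Q, -, hQ, hQP⟩ := Ideal.exists_ideal_over_prime_of_isIntegral P (⊥ : Ideal ZBar) (by
    rw [Ideal.comap_bot_of_injective _ hinj]
    exact bot_le)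
  exact ⟨Q, hQ, hQP⟩

end Incl

end Fermat.Agent.GalRep

namespace Fermat.Agent.GalRep

open Fermat.Agent.FrobLib (ZBar valuationSubringOfPrime)

section Main

variable (K : IntermediateField ℚ (AlgebraicClosure ℚ)) [Normal ℚ K]

theorem bridge_restrict_apply (τ : GQ) (x : K) :
    ((AlgEquiv.restrictNormalHom (F := ℚ) (K₁ := AlgebraicClosure ℚ) K τ x : K) :
      AlgebraicClosure ℚ) = τ (x : AlgebraicClosure ℚ) :=
  AlgEquiv.restrictNormal_commutes τ K x

theorem bridgeIncl_smul (τ : GQ) (x : 𝓞 K) :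
    ((bridgeIncl K ((AlgEquiv.restrictNormalHom (F := ℚ) (K₁ := AlgebraicClosure ℚ) K τ) • x) :
      ZBar) : AlgebraicClosure ℚ) = τ ((x : K) : AlgebraicClosure ℚ) := by
  rw [coe_bridgeIncl]
  exact bridge_restrict_apply K τ (x : K)

end Main

/-- card of `ℤ ⧸ (P ∩ ℤ)` for a prime `P` containing the prime number `ℓ`. -/
theorem bridge_card_under {R : Type*} [CommRing R] (P : Ideal R) [P.IsPrime] (ℓ : ℕ)
    (hℓ : ℓ.Prime) (hℓP : (ℓ : R) ∈ P) : Nat.card (ℤ ⧸ P.under ℤ) = ℓ := by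
  have h1 : P.under ℤ = Ideal.span {(ℓ : ℤ)} := by
    have hmem : (ℓ : ℤ) ∈ P.under ℤ := by
      rw [Ideal.under_def, Ideal.mem_comap]
      simpa using hℓP
    have hmax : (Ideal.span {(ℓ : ℤ)}).IsMaximal := by
      have hpr : (Ideal.span {(ℓ : ℤ)}).IsPrime :=
        (Ideal.span_singleton_prime (by exact_mod_cast hℓ.ne_zero)).mpr
          (Nat.prime_iff_prime_int.mp hℓ)
      exact Ideal.IsPrime.isMaximal hpr (by
        rw [Ne, Ideal.span_singleton_eq_bot]
        exact_mod_cast hℓ.ne_zero)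
    have hle : Ideal.span {(ℓ : ℤ)} ≤ P.under ℤ := by
      rw [Ideal.span_singleton_le_iff_mem]
      exact hmem
    have hne : P.under ℤ ≠ ⊤ := (Ideal.IsPrime.under ℤ P).ne_top
    exact (hmax.eq_of_le hne hle).symm
  rw [h1]
  have := Int.card_ideal_quot ℓ
  simpa using this

end Fermat.Agent.GalRep

namespace Fermat.Agent.GalRep

open Fermat.Agent.FrobLib (ZBar valuationSubringOfPrime)

/-- **Bridge** `T1 ⇒ T2`: weak Chebotarev for number fields implies weak Chebotarev in the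
Prelude's language (valuation subrings of `ℚ̄` and `IsFrobeniusAt`). -/
theorem weakCheb_of_weakChebNF (h : WeakChebNF) : WeakCheb := by
  intro L hL S g
  have := hL
  have hgal : IsGalois ℚ (AlgebraicClosure ℚ) := Fermat.Agent.FrobLib.isGalois_QBar
  have : Normal ℚ (AlgebraicClosure ℚ) := hgal.to_normal
  let K : IntermediateField ℚ (AlgebraicClosure ℚ) :=
    IntermediateField.normalClosure ℚ L (AlgebraicClosure ℚ)
  have : FiniteDimensional ℚ K := normalClosure.is_finiteDimensional ℚ L (AlgebraicClosure ℚ)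
  have : Normal ℚ K := normalClosure.normal ℚ L (AlgebraicClosure ℚ)
  have : IsGalois ℚ K := ⟨⟩
  have : NumberField K :=
    { to_charZero := inferInstance, to_finiteDimensional := inferInstance }
  have hLK : L ≤ K := IntermediateField.le_normalClosure L
  obtain ⟨ℓ, P, τ₀, hℓ, hℓS, hP, hℓP, hin, hfr, hz⟩ :=
    h K (AlgEquiv.restrictNormalHom (F := ℚ) (K₁ := AlgebraicClosure ℚ) K g) S
  have := hP
  obtain ⟨Q, hQ, hQP⟩ := exists_prime_over K P
  have := hQ
  have hℓQ : (ℓ : ZBar) ∈ Q := by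
    have h1 : (ℓ : 𝓞 K) ∈ Q.comap (bridgeIncl K) := by rw [hQP]; exact hℓP
    rw [Ideal.mem_comap, map_natCast] at h1
    exact h1
  obtain ⟨τ, hτ⟩ := Fermat.Agent.FrobLib.exists_frob_congr ℓ hℓ Q hℓQ
  have hfrobA : (valuationSubringOfPrime Q).IsFrobeniusAt τ ℓ :=
    Fermat.Agent.FrobLib.isFrobeniusAt_valuationSubringOfPrime Q ℓ hℓ.ne_zero τ
      (fun b => ⟨τ • b - b ^ ℓ, hτ b, rfl⟩)
  -- the restriction of `τ` to `K` is a Frobenius at `P`
  have hfrK : IsArithFrobAt ℤ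
      (AlgEquiv.restrictNormalHom (F := ℚ) (K₁ := AlgebraicClosure ℚ) K τ) P := by
    intro x
    rw [bridge_card_under P ℓ hℓ hℓP, ← hQP, Ideal.mem_comap, map_sub, map_pow]
    have h1 := hτ (bridgeIncl K x)
    have h2 : bridgeIncl K ((MulSemiringAction.toAlgHom ℤ (𝓞 K)
        (AlgEquiv.restrictNormalHom (F := ℚ) (K₁ := AlgebraicClosure ℚ) K τ)) x)
        = τ • bridgeIncl K x := by
      apply Subtype.ext
      exact bridgeIncl_smul K τ x
    rw [h2]
    exact h1
  have heq : AlgEquiv.restrictNormalHom (F := ℚ) (K₁ := AlgebraicClosure ℚ) K τ = τ₀ := by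
    have h1 := IsArithFrobAt.mul_inv_mem_inertia hfrK hfr
    rw [hin, Subgroup.mem_bot] at h1
    exact mul_inv_eq_one.mp h1
  -- powers
  have h1 : τ₀ ∈ Subgroup.zpowers
      (AlgEquiv.restrictNormalHom (F := ℚ) (K₁ := AlgebraicClosure ℚ) K g) := by
    rw [← hz]
    exact Subgroup.mem_zpowers τ₀
  have h2 : AlgEquiv.restrictNormalHom (F := ℚ) (K₁ := AlgebraicClosure ℚ) K g
      ∈ Subgroup.zpowers τ₀ := by
    rw [hz]
    exact Subgroup.mem_zpowers _
  obtain ⟨k, hk⟩ := mem_powers_iff_mem_zpowers.mpr h1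
  obtain ⟨k', hk'⟩ := mem_powers_iff_mem_zpowers.mpr h2
  refine ⟨ℓ, valuationSubringOfPrime Q, τ, k, k', hℓ, hℓS,
    Fermat.Agent.FrobLib.liesOverPrime_valuationSubringOfPrime Q ℓ hℓQ, hfrobA, ?_, ?_⟩
  · intro x hx
    have e1 := bridge_restrict_apply K τ ⟨x, hLK hx⟩
    have e2 := bridge_restrict_apply K (g ^ k) ⟨x, hLK hx⟩
    simp only at e1 e2
    rw [← e1, ← e2, heq, map_pow]
    exact congrArg (fun f : K ≃ₐ[ℚ] K => ((f ⟨x, hLK hx⟩ : K) : AlgebraicClosure ℚ)) hk.symm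
  · intro x hx
    have e1 := bridge_restrict_apply K g ⟨x, hLK hx⟩
    have e2 := bridge_restrict_apply K (τ ^ k') ⟨x, hLK hx⟩
    simp only at e1 e2
    rw [← e1, ← e2, map_pow, heq]
    exact congrArg (fun f : K ≃ₐ[ℚ] K => ((f ⟨x, hLK hx⟩ : K) : AlgebraicClosure ℚ)) hk'.symm

end Fermat.Agent.GalRep
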