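import Mathlib

/-!
# Weak Chebotarev, piece P3: the combinatorial/analytic core (helper18)

`cheb_comb`: if for every subgroup `H` of a finite group `G` the weighted count
`∑_{ℓ good} #{g : g τ_ℓ g⁻¹ ∈ H} ℓ^{-s}` is `|H| log (1/(s-1)) + O(1)` on `(1, 2]`, then every
cyclic subgroup `⟨σ⟩` is generated by a conjugate of some `τ_ℓ`, `ℓ` good, outside any finite set.

Proof: Möbius inversion over the subgroups of `G` by well-founded induction (no arithmetic
functions needed): with `W_K := ∑_{y : ⟨y⟩ = K} F_y`, `∑_{x ∈ H} F_x = ∑_{K ≤ H} W_K`.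
-/

set_option autoImplicit false
set_option linter.unusedSectionVars false

open scoped BigOperators

namespace Fermat.Agent.Cheb

section

variable {G : Type*} [Group G]

/-- number of `g` with `g t g⁻¹ = x`. -/
noncomputable def chcCount (t x : G) : ℕ := Nat.card {g : G // g * t * g⁻¹ = x}

/-- the set of generators of the subgroup `K`. -/
def chcGen (K : Subgroup G) : Set G := {y | Subgroup.zpowers y = K}

variable [Finite G]

theorem chcCount_le (t x : G) : chcCount t x ≤ Nat.card G :=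
  Finite.card_subtype_le _

/-- counting `{g : g t g⁻¹ ∈ H}` fibrewise. -/
theorem chc_card_mem [Fintype G] (H : Subgroup G) (t : G) :
    Nat.card {g : G // g * t * g⁻¹ ∈ H}
      = ∑ x : G, (H : Set G).indicator (fun x => chcCount t x) x := by
  classical
  have h1 : Nat.card {g : G // g * t * g⁻¹ ∈ H}
      = (Finset.univ.filter (fun g : G => g * t * g⁻¹ ∈ H)).card := by
    rw [Nat.card_eq_fintype_card, Fintype.card_subtype]
  have h2 : ∀ x : G, chcCount t x = (Finset.univ.filter (fun g : G => g * t * g⁻¹ = x)).card := by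
    intro x
    unfold chcCount
    rw [Nat.card_eq_fintype_card, Fintype.card_subtype]
  rw [h1, Finset.card_eq_sum_card_fiberwise (f := fun g : G => g * t * g⁻¹)
    (t := (Finset.univ : Finset G)) (fun _ _ => Finset.mem_univ _)]
  refine Finset.sum_congr rfl (fun x _ => ?_)
  by_cases hx : x ∈ H
  · rw [Set.indicator_of_mem (by exact hx), h2]
    congr 1
    ext g
    simp only [Finset.mem_filter, Finset.mem_univ, true_and]
    constructor
    · rintro ⟨-, h⟩; exact h
    · intro h; exact ⟨by rw [h]; exact hx, h⟩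
  · rw [Set.indicator_of_notMem (by exact hx)]
    rw [Finset.card_eq_zero, Finset.filter_eq_empty_iff]
    rintro g hg h
    rw [Finset.mem_filter] at hg
    exact hx (h ▸ hg.2)

/-- partition of a subgroup according to the subgroup generated by an element. -/
theorem chc_partition [Fintype G] [Fintype (Subgroup G)] (H : Subgroup G) (f : G → ℝ) :
    ∑ x : G, (H : Set G).indicator f x
      = ∑ K : Subgroup G, (Set.Iic H).indicator
          (fun K => ∑ x : G, (chcGen K).indicator f x) K := by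
  classical
  have h1 : ∀ x : G, (H : Set G).indicator f x
      = ∑ K : Subgroup G, (Set.Iic H).indicator (fun K => (chcGen K).indicator f x) K := by
    intro x
    rw [Finset.sum_eq_single (Subgroup.zpowers x)]
    · by_cases hx : x ∈ H
      · rw [Set.indicator_of_mem (show Subgroup.zpowers x ∈ Set.Iic H from
            Subgroup.zpowers_le.mpr hx), Set.indicator_of_mem (by exact hx),
          Set.indicator_of_mem (show x ∈ chcGen (Subgroup.zpowers x) from rfl)]
      · rw [Set.indicator_of_notMem (show Subgroup.zpowers x ∉ Set.Iic H from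
            fun h => hx (Subgroup.zpowers_le.mp h)), Set.indicator_of_notMem (by exact hx)]
    · intro K _ hK
      have : x ∉ chcGen K := fun h => hK h.symm
      by_cases hKH : K ∈ Set.Iic H
      · rw [Set.indicator_of_mem hKH, Set.indicator_of_notMem this]
      · rw [Set.indicator_of_notMem hKH]
    · intro h; exact absurd (Finset.mem_univ _) h
  simp_rw [h1]
  rw [Finset.sum_comm]
  refine Finset.sum_congr rfl (fun K _ => ?_)
  by_cases hK : K ∈ Set.Iic H
  · simp only [Set.indicator_of_mem hK]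
  · simp only [Set.indicator_of_notMem hK]
    exact Finset.sum_const_zero

end

section analytic

variable {G : Type*} [Group G] [Finite G]

/-- the coefficient `a_ℓ(x)`. -/
noncomputable def chcA (good : Set Nat.Primes) (τ : Nat.Primes → G) (ℓ : Nat.Primes) (x : G) : ℝ :=
  good.indicator (fun ℓ => (chcCount (τ ℓ) x : ℝ)) ℓ

theorem chcA_nonneg (good : Set Nat.Primes) (τ : Nat.Primes → G) (ℓ : Nat.Primes) (x : G) :
    0 ≤ chcA good τ ℓ x := by
  unfold chcA
  exact Set.indicator_nonneg (fun _ _ => Nat.cast_nonneg _) _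

theorem chcA_le (good : Set Nat.Primes) (τ : Nat.Primes → G) (ℓ : Nat.Primes) (x : G) :
    chcA good τ ℓ x ≤ Nat.card G := by
  unfold chcA
  by_cases h : ℓ ∈ good
  · rw [Set.indicator_of_mem h]
    exact_mod_cast chcCount_le _ _
  · rw [Set.indicator_of_notMem h]
    exact Nat.cast_nonneg _

theorem chcA_ne_zero {good : Set Nat.Primes} {τ : Nat.Primes → G} {ℓ : Nat.Primes} {x : G}
    (h : chcA good τ ℓ x ≠ 0) : ℓ ∈ good ∧ ∃ g : G, g * τ ℓ * g⁻¹ = x := by
  unfold chcA at h
  have hg : ℓ ∈ good := by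
    by_contra hn
    exact h (Set.indicator_of_notMem hn _)
  refine ⟨hg, ?_⟩
  rw [Set.indicator_of_mem hg] at h
  have h' : chcCount (τ ℓ) x ≠ 0 := by
    intro h0
    apply h
    rw [h0]; simp
  unfold chcCount at h'
  by_contra hne
  apply h'
  have : IsEmpty {g : G // g * τ ℓ * g⁻¹ = x} := ⟨fun g => hne ⟨g.1, g.2⟩⟩
  exact Nat.card_of_isEmpty

theorem chc_rpow_nonneg (ℓ : Nat.Primes) (s : ℝ) : 0 ≤ ((ℓ : ℕ) : ℝ) ^ (-s) :=
  Real.rpow_nonneg (Nat.cast_nonneg _) _

theorem chc_rpow_le_one (ℓ : Nat.Primes) {s : ℝ} (hs : 0 ≤ s) : ((ℓ : ℕ) : ℝ) ^ (-s) ≤ 1 := by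
  apply Real.rpow_le_one_of_one_le_of_nonpos
  · exact_mod_cast ℓ.2.one_lt.le
  · linarith

theorem chc_summable (good : Set Nat.Primes) (τ : Nat.Primes → G) (x : G) {s : ℝ} (hs : 1 < s) :
    Summable (fun ℓ : Nat.Primes => chcA good τ ℓ x * ((ℓ : ℕ) : ℝ) ^ (-s)) := by
  have h0 : Summable (fun ℓ : Nat.Primes => (Nat.card G : ℝ) * ((ℓ : ℕ) : ℝ) ^ (-s)) :=
    (Nat.Primes.summable_rpow.mpr (by linarith)).mul_left _
  refine h0.of_nonneg_of_le (fun ℓ => mul_nonneg (chcA_nonneg _ _ _ _) (chc_rpow_nonneg _ _))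
    (fun ℓ => ?_)
  exact mul_le_mul_of_nonneg_right (chcA_le _ _ _ _) (chc_rpow_nonneg _ _)

/-- `F_x(s) = ∑_ℓ a_ℓ(x) ℓ^{-s}`. -/
noncomputable def chcF (good : Set Nat.Primes) (τ : Nat.Primes → G) (s : ℝ) (x : G) : ℝ :=
  ∑' ℓ : Nat.Primes, chcA good τ ℓ x * ((ℓ : ℕ) : ℝ) ^ (-s)

/-- the series of the hypothesis is `∑_{x ∈ H} F_x(s)`. -/
theorem chc_tsum_eq [Fintype G] (good : Set Nat.Primes) (τ : Nat.Primes → G) (H : Subgroup G)
    {s : ℝ} (hs : 1 < s) :
    (∑' ℓ : Nat.Primes, (good.indicator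
        (fun ℓ => (Nat.card {g : G // g * τ ℓ * g⁻¹ ∈ H} : ℝ)) ℓ) * ((ℓ : ℕ) : ℝ) ^ (-s))
      = ∑ x : G, (H : Set G).indicator (chcF good τ s) x := by
  classical
  have h1 : ∀ ℓ : Nat.Primes, (good.indicator
        (fun ℓ => (Nat.card {g : G // g * τ ℓ * g⁻¹ ∈ H} : ℝ)) ℓ) * ((ℓ : ℕ) : ℝ) ^ (-s)
      = ∑ x : G, (H : Set G).indicator
          (fun x => chcA good τ ℓ x * ((ℓ : ℕ) : ℝ) ^ (-s)) x := by
    intro ℓ
    have e : ∀ x : G, (H : Set G).indicator
          (fun x => chcA good τ ℓ x * ((ℓ : ℕ) : ℝ) ^ (-s)) x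
        = (H : Set G).indicator (fun x => chcA good τ ℓ x) x * ((ℓ : ℕ) : ℝ) ^ (-s) := by
      intro x
      by_cases hx : x ∈ (H : Set G)
      · rw [Set.indicator_of_mem hx, Set.indicator_of_mem hx]
      · rw [Set.indicator_of_notMem hx, Set.indicator_of_notMem hx, zero_mul]
    simp_rw [e]
    rw [← Finset.sum_mul]
    congr 1
    by_cases hg : ℓ ∈ good
    · rw [Set.indicator_of_mem hg, chc_card_mem H (τ ℓ)]
      push_cast
      refine Finset.sum_congr rfl (fun x _ => ?_)
      by_cases hx : x ∈ (H : Set G)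
      · rw [Set.indicator_of_mem hx, Set.indicator_of_mem hx]
        unfold chcA
        rw [Set.indicator_of_mem hg]
      · rw [Set.indicator_of_notMem hx, Set.indicator_of_notMem hx]
        simp
    · rw [Set.indicator_of_notMem hg]
      symm
      apply Finset.sum_eq_zero
      intro x _
      by_cases hx : x ∈ (H : Set G)
      · rw [Set.indicator_of_mem hx]
        unfold chcA
        rw [Set.indicator_of_notMem hg]
      · rw [Set.indicator_of_notMem hx]
  simp_rw [h1]
  rw [Summable.tsum_finsetSum]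
  · refine Finset.sum_congr rfl (fun x _ => ?_)
    by_cases hx : x ∈ (H : Set G)
    · simp only [Set.indicator_of_mem hx]
      rfl
    · simp only [Set.indicator_of_notMem hx]
      exact tsum_zero
  · intro x _
    by_cases hx : x ∈ (H : Set G)
    · simp only [Set.indicator_of_mem hx]
      exact chc_summable good τ x hs
    · simp only [Set.indicator_of_notMem hx]
      exact summable_zero

/-- `W_K(f) = ∑_{y : ⟨y⟩ = K} f y`. -/
noncomputable def chcW [Fintype G] (f : G → ℝ) (K : Subgroup G) : ℝ :=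
  ∑ x : G, (chcGen K).indicator f x

theorem chc_card_eq [Fintype G] (H : Subgroup G) :
    (Nat.card H : ℝ) = ∑ x : G, (H : Set G).indicator (fun _ => (1 : ℝ)) x := by
  classical
  rw [Finset.sum_indicator_eq_sum_filter]  
  simp only [Finset.sum_const, nsmul_eq_mul, mul_one]
  congr 1
  rw [Nat.card_eq_fintype_card, Fintype.card_subtype]
  congr 1

/-- Möbius inversion by well-founded induction on the subgroup: the generators of `K` carry the
weight `#(generators of K) · log (1/(s-1)) + O(1)`. -/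
theorem chc_W_asymp [Fintype G] [Fintype (Subgroup G)] (good : Set Nat.Primes)
    (τ : Nat.Primes → G)
    (h : ∀ H : Subgroup G, ∃ C : ℝ, ∀ s : ℝ, 1 < s → s ≤ 2 →
      |(∑' ℓ : Nat.Primes, (good.indicator
            (fun ℓ => (Nat.card {g : G // g * τ ℓ * g⁻¹ ∈ H} : ℝ)) ℓ) * ((ℓ : ℕ) : ℝ) ^ (-s))
          - Nat.card H * Real.log (1 / (s - 1))| ≤ C)
    (K : Subgroup G) :
    ∃ C : ℝ, ∀ s : ℝ, 1 < s → s ≤ 2 →
      |chcW (chcF good τ s) K - chcW (fun _ => (1 : ℝ)) K * Real.log (1 / (s - 1))| ≤ C := by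
  classical
  induction K using WellFoundedLT.induction with
  | ind K ih =>
    obtain ⟨C₀, hC₀⟩ := h K
    have ih' : ∀ K' : Subgroup G, ∃ C : ℝ, K' < K → ∀ s : ℝ, 1 < s → s ≤ 2 →
        |chcW (chcF good τ s) K' - chcW (fun _ => (1 : ℝ)) K' * Real.log (1 / (s - 1))| ≤ C := by
      intro K'
      by_cases hK' : K' < K
      · obtain ⟨C, hC⟩ := ih K' hK'
        exact ⟨C, fun _ => hC⟩
      · exact ⟨0, fun h => absurd h hK'⟩
    choose Cf hCf using ih'
    refine ⟨C₀ + ∑ K' ∈ Finset.univ.erase K, |Cf K'|, fun s hs hs2 => ?_⟩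
    have hE := hC₀ s hs hs2
    rw [chc_tsum_eq good τ K hs, chc_card_eq K, chc_partition K (chcF good τ s),
      chc_partition K (fun _ => (1 : ℝ)), Finset.sum_mul, ← Finset.sum_sub_distrib] at hE
    have hterm : ∀ K' : Subgroup G,
        (Set.Iic K).indicator (fun K => ∑ x : G, (chcGen K).indicator (chcF good τ s) x) K' -
          (Set.Iic K).indicator (fun K => ∑ x : G, (chcGen K).indicator (fun _ => (1 : ℝ)) x) K' *
            Real.log (1 / (s - 1))
        = (Set.Iic K).indicator (fun K' => chcW (chcF good τ s) K' -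
            chcW (fun _ => (1 : ℝ)) K' * Real.log (1 / (s - 1))) K' := by
      intro K'
      by_cases hK' : K' ∈ Set.Iic K
      · simp only [Set.indicator_of_mem hK']
        rfl
      · simp only [Set.indicator_of_notMem hK', zero_mul, sub_zero]
    simp_rw [hterm] at hE
    rw [← Finset.add_sum_erase Finset.univ _ (Finset.mem_univ K),
      Set.indicator_of_mem (show K ∈ Set.Iic K from le_refl K)] at hE
    have hrest : |∑ K' ∈ Finset.univ.erase K, (Set.Iic K).indicator (fun K' =>
        chcW (chcF good τ s) K' - chcW (fun _ => (1 : ℝ)) K' * Real.log (1 / (s - 1))) K'|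
        ≤ ∑ K' ∈ Finset.univ.erase K, |Cf K'| := by
      refine (Finset.abs_sum_le_sum_abs _ _).trans (Finset.sum_le_sum (fun K' hK' => ?_))
      by_cases hmem : K' ∈ Set.Iic K
      · rw [Set.indicator_of_mem hmem]
        have hlt : K' < K := lt_of_le_of_ne hmem (Finset.ne_of_mem_erase hK')
        exact (hCf K' hlt s hs hs2).trans (le_abs_self _)
      · rw [Set.indicator_of_notMem hmem, abs_zero]
        exact abs_nonneg _
    set D := chcW (chcF good τ s) K - chcW (fun _ => (1 : ℝ)) K * Real.log (1 / (s - 1)) with hD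
    set R := ∑ K' ∈ Finset.univ.erase K, (Set.Iic K).indicator (fun K' =>
        chcW (chcF good τ s) K' - chcW (fun _ => (1 : ℝ)) K' * Real.log (1 / (s - 1))) K' with hR
    have : D = (D + R) - R := by ring
    rw [this]
    calc |D + R - R| ≤ |D + R| + |R| := abs_sub _ _
      _ ≤ C₀ + ∑ K' ∈ Finset.univ.erase K, |Cf K'| := add_le_add hE hrest

end analytic

/-- **P3, the combinatorial core of weak Chebotarev.** -/
theorem cheb_comb {G : Type*} [Group G] [Finite G] (good : Set Nat.Primes) (τ : Nat.Primes → G)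
    (h : ∀ H : Subgroup G, ∃ C : ℝ, ∀ s : ℝ, 1 < s → s ≤ 2 →
      |(∑' ℓ : Nat.Primes, (good.indicator
            (fun ℓ => (Nat.card {g : G // g * τ ℓ * g⁻¹ ∈ H} : ℝ)) ℓ) * ((ℓ : ℕ) : ℝ) ^ (-s))
          - Nat.card H * Real.log (1 / (s - 1))| ≤ C)
    (σ : G) (S : Finset ℕ) :
    ∃ ℓ ∈ good, (ℓ : ℕ) ∉ S ∧ ∃ g : G, Subgroup.zpowers (g * τ ℓ * g⁻¹) = Subgroup.zpowers σ := by
  classical
  let _iG : Fintype G := Fintype.ofFinite G
  let _iS : Fintype (Subgroup G) := Fintype.ofFinite (Subgroup G)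
  by_contra hcon
  have hcon' : ∀ ℓ : Nat.Primes, ℓ ∈ good → ∀ g : G,
      Subgroup.zpowers (g * τ ℓ * g⁻¹) = Subgroup.zpowers σ → (ℓ : ℕ) ∈ S := by
    intro ℓ hℓ g hg
    by_contra hS
    exact hcon ⟨ℓ, hℓ, hS, g, hg⟩
  obtain ⟨C, hC⟩ := chc_W_asymp good τ h (Subgroup.zpowers σ)
  -- at least one generator
  have hg1 : (1 : ℝ) ≤ chcW (fun _ => (1 : ℝ)) (Subgroup.zpowers σ) := by
    unfold chcW
    have hnn : ∀ x ∈ (Finset.univ : Finset G),
        0 ≤ (chcGen (Subgroup.zpowers σ)).indicator (fun _ => (1 : ℝ)) x :=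
      fun x _ => Set.indicator_nonneg (fun _ _ => zero_le_one) _
    have := Finset.single_le_sum hnn (Finset.mem_univ σ)
    rwa [Set.indicator_of_mem (show σ ∈ chcGen (Subgroup.zpowers σ) from rfl)] at this
  -- the finite set of primes in `S`
  have hT : {ℓ : Nat.Primes | (ℓ : ℕ) ∈ S}.Finite :=
    Set.Finite.preimage (f := fun ℓ : Nat.Primes => (ℓ : ℕ))
      (Subtype.val_injective.injOn) S.finite_toSet
  set T : Finset Nat.Primes := hT.toFinset with hTdef
  set B : ℝ := (Nat.card G : ℝ) * ((T.card : ℝ) * (Nat.card G : ℝ)) with hBdef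
  have hB0 : 0 ≤ B := by positivity
  have hFle : ∀ s : ℝ, 1 < s → ∀ y ∈ chcGen (Subgroup.zpowers σ),
      chcF good τ s y ≤ (T.card : ℝ) * (Nat.card G : ℝ) := by
    intro s hs y hy
    unfold chcF
    rw [tsum_eq_sum (s := T)]
    · calc ∑ ℓ ∈ T, chcA good τ ℓ y * ((ℓ : ℕ) : ℝ) ^ (-s)
          ≤ ∑ ℓ ∈ T, (Nat.card G : ℝ) := by
            refine Finset.sum_le_sum (fun ℓ _ => ?_)
            calc chcA good τ ℓ y * ((ℓ : ℕ) : ℝ) ^ (-s)
                ≤ (Nat.card G : ℝ) * 1 :=
                  mul_le_mul (chcA_le _ _ _ _) (chc_rpow_le_one ℓ (by linarith))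
                    (chc_rpow_nonneg _ _) (Nat.cast_nonneg _)
              _ = (Nat.card G : ℝ) := mul_one _
        _ = (T.card : ℝ) * (Nat.card G : ℝ) := by
            rw [Finset.sum_const, nsmul_eq_mul]
    · intro ℓ hℓ
      by_contra hne
      have hne' : chcA good τ ℓ y ≠ 0 := fun h0 => hne (by rw [h0, zero_mul])
      obtain ⟨hgood, g, hg⟩ := chcA_ne_zero hne'
      apply hℓ
      rw [hTdef, Set.Finite.mem_toFinset]
      exact hcon' ℓ hgood g (by rw [hg]; exact hy)
  have hWle : ∀ s : ℝ, 1 < s → chcW (chcF good τ s) (Subgroup.zpowers σ) ≤ B := by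
    intro s hs
    unfold chcW
    calc ∑ x : G, (chcGen (Subgroup.zpowers σ)).indicator (chcF good τ s) x
        ≤ ∑ x : G, (T.card : ℝ) * (Nat.card G : ℝ) := by
          refine Finset.sum_le_sum (fun x _ => ?_)
          by_cases hx : x ∈ chcGen (Subgroup.zpowers σ)
          · rw [Set.indicator_of_mem hx]
            exact hFle s hs x hx
          · rw [Set.indicator_of_notMem hx]
            positivity
      _ = B := by
          rw [Finset.sum_const, nsmul_eq_mul, hBdef, Finset.card_univ, Nat.card_eq_fintype_card]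
  -- choose `s` close to `1`
  set M : ℝ := |B| + |C| + 1 with hM
  have hMpos : 0 < M := by positivity
  set s : ℝ := 1 + Real.exp (-M) with hs
  have hs1 : 1 < s := by
    have := Real.exp_pos (-M)
    linarith
  have hs2 : s ≤ 2 := by
    have : Real.exp (-M) ≤ 1 := Real.exp_le_one_iff.mpr (by linarith)
    linarith
  have hL : Real.log (1 / (s - 1)) = M := by
    have : s - 1 = Real.exp (-M) := by rw [hs]; ring
    rw [this, one_div, ← Real.exp_neg, neg_neg, Real.log_exp]
  have h1 := hC s hs1 hs2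
  rw [hL] at h1
  have h2 := hWle s hs1
  have h3 : chcW (fun _ => (1 : ℝ)) (Subgroup.zpowers σ) * M
      ≤ chcW (chcF good τ s) (Subgroup.zpowers σ) + C := by
    have := (abs_le.mp h1).1
    linarith
  have h4 : M ≤ chcW (fun _ => (1 : ℝ)) (Subgroup.zpowers σ) * M := by
    calc M = 1 * M := (one_mul M).symm
      _ ≤ chcW (fun _ => (1 : ℝ)) (Subgroup.zpowers σ) * M :=
          mul_le_mul_of_nonneg_right hg1 hMpos.le
  have h5 : B ≤ |B| := le_abs_self B
  have h6 : C ≤ |C| := le_abs_self C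
  linarith

end Fermat.Agent.Cheb
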