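import Mathlib

/-!
# Weak Chebotarev for Galois extensions of `ℚ`: basic definitions

`idealCount M m` is the number of ideals of `𝓞 M` of absolute norm `m`, i.e. the `m`-th Dirichlet
coefficient of the Dedekind zeta function of `M`; `primeSum M s` is the sum of
`idealCount M ℓ * ℓ ^ (-s)` over the rational primes `ℓ`.
-/

open NumberField

namespace Fermat.Agent.Cheb

/-- number of ideals of `𝓞 M` of absolute norm `m` (the Dirichlet coefficient of `ζ_M`). -/
noncomputable def idealCount (M : Type*) [Field M] [NumberField M] (m : ℕ) : ℕ :=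
  Nat.card {I : Ideal (𝓞 M) // Ideal.absNorm I = m}

/-- `∑_{ℓ prime} a_M(ℓ) ℓ^{-s}` where `a_M(ℓ)` is the number of ideals of norm `ℓ`. -/
noncomputable def primeSum (M : Type*) [Field M] [NumberField M] (s : ℝ) : ℝ :=
  ∑' ℓ : Nat.Primes, (idealCount M ℓ : ℝ) * ((ℓ : ℕ) : ℝ) ^ (-s)

end Fermat.Agent.Cheb
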