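import Mathlib
import Fermat.Agent.Cheb.Defs

/-!
# Weak Chebotarev, piece P2: counting ideals of norm `ℓ` of a fixed field

For a Galois number field `K/ℚ`, a subgroup `H` of the Galois group, a rational prime `ℓ` and an
unramified prime `P` of `K` over `ℓ` with Frobenius `τ`:
`|H| · #{ideals of norm ℓ of K^H} = #{g : g τ g⁻¹ ∈ H}`.
-/

open NumberField
open scoped Pointwise

namespace Fermat.Agent.Cheb

section General

variable {B : Type*} [CommRing B] {G : Type*} [Group G] [MulSemiringAction G B]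

/-- powers of a Frobenius act as powers of `x ↦ x ^ q` on the residue ring. -/
theorem count_frob_pow_mk (P : Ideal B) (τ : G) (hτ : IsArithFrobAt ℤ τ P) (n : ℕ) (x : B) :
    Ideal.Quotient.mk P ((τ ^ n) • x) =
      (Ideal.Quotient.mk P x) ^ (Nat.card (ℤ ⧸ P.under ℤ) ^ n) := by
  induction n generalizing x with
  | zero => simp
  | succ n ih =>
    rw [pow_succ, mul_smul, ih, pow_succ, pow_mul']
    have := hτ.mk_apply x
    simp only [MulSemiringAction.toAlgHom_apply] at this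
    rw [this]

attribute [local instance] Ideal.Quotient.field in
/-- if the inertia group of `P` is trivial, the stabilizer of `P` is generated by a Frobenius. -/
theorem count_stab_mem_zpowers (P : Ideal B) [P.IsPrime] [Finite (B ⧸ P)]
    [(P.under ℤ).IsMaximal]
    (hunr : P.inertia G = ⊥) (τ : G) (hτ : IsArithFrobAt ℤ τ P) (g : G) (hg : g • P = P) :
    g ∈ Subgroup.zpowers τ := by
  classical
  have hPmax : P.IsMaximal := Ideal.Quotient.maximal_of_isField _ (Finite.isField_of_domain (B ⧸ P))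
  have hfin : Finite (ℤ ⧸ P.under ℤ) := hτ.finite_quotient
  cases nonempty_fintype (ℤ ⧸ P.under ℤ)
  let gs : MulAction.stabilizer G P := ⟨g, hg⟩
  obtain ⟨n, hn⟩ := (FiniteField.bijective_frobeniusAlgEquivOfAlgebraic_pow (ℤ ⧸ P.under ℤ) (B ⧸ P)).2
    (Ideal.Quotient.stabilizerHom P (P.under ℤ) G gs)
  have key : g * (τ ^ (n : ℕ))⁻¹ ∈ P.inertia G := by
    intro x
    have h1 : Ideal.Quotient.mk P (g • ((τ ^ (n : ℕ))⁻¹ • x))
        = Ideal.Quotient.mk P ((τ ^ (n : ℕ)) • ((τ ^ (n : ℕ))⁻¹ • x)) := by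
      rw [count_frob_pow_mk P τ hτ]
      have h2 := DFunLike.congr_fun hn (Ideal.Quotient.mk P ((τ ^ (n : ℕ))⁻¹ • x))
      simp only at h2
      rw [Ideal.Quotient.stabilizerHom_apply] at h2
      have h3 : gs • ((τ ^ (n : ℕ))⁻¹ • x) = g • ((τ ^ (n : ℕ))⁻¹ • x) := rfl
      rw [h3] at h2
      rw [← h2, AlgEquiv.coe_pow, FiniteField.coe_frobeniusAlgEquivOfAlgebraic_iterate,
        Nat.card_eq_fintype_card]
    rw [smul_inv_smul] at h1
    rw [mul_smul]
    exact Ideal.Quotient.eq.mp h1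
  rw [hunr, Subgroup.mem_bot] at key
  have : g = τ ^ (n : ℕ) := by
    rw [mul_inv_eq_one] at key; exact key
  rw [this]
  exact Subgroup.pow_mem _ (Subgroup.mem_zpowers τ) _

/-- the prime of `ℤ` below a prime containing the rational prime `ℓ`. -/
theorem count_under_int_eq (Q : Ideal B) [Q.IsPrime] {ℓ : ℕ} (hℓ : ℓ.Prime) (hQ : (ℓ : B) ∈ Q) :
    Q.under ℤ = Ideal.span {(ℓ : ℤ)} := by
  have hmax : (Ideal.span {(ℓ : ℤ)}).IsMaximal :=
    PrincipalIdealRing.isMaximal_of_irreducible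
      (Nat.prime_iff_prime_int.mp hℓ).irreducible
  have hle : Ideal.span {(ℓ : ℤ)} ≤ Q.under ℤ := by
    rw [Ideal.span_singleton_le_iff_mem, Ideal.under_def, Ideal.mem_comap]
    simpa using hQ
  have hne : Q.under ℤ ≠ ⊤ := (inferInstance : (Q.under ℤ).IsPrime).ne_top
  exact (hmax.eq_of_le hne hle).symm

/-- the residue field of `ℤ` below a prime containing the rational prime `ℓ` has `ℓ` elements. -/
theorem count_card_under_int (Q : Ideal B) [Q.IsPrime] {ℓ : ℕ} (hℓ : ℓ.Prime) (hQ : (ℓ : B) ∈ Q) :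
    Nat.card (ℤ ⧸ Q.under ℤ) = ℓ := by
  rw [count_under_int_eq Q hℓ hQ]
  rw [Nat.card_congr (Int.quotientSpanNatEquivZMod ℓ).toEquiv, Nat.card_zmod]

/-- inertia of a conjugate prime is trivial when the inertia of `P` is. -/
theorem count_inertia_smul (P : Ideal B) (hunr : P.inertia G = ⊥) (g : G) :
    (g • P).inertia G = ⊥ := by
  rw [eq_bot_iff]
  intro σ hσ
  rw [Subgroup.mem_bot]
  have h1 : g⁻¹ * σ * g ∈ P.inertia G := by
    intro x
    have h2 := hσ (g • x)
    have h2' : σ • g • x - g • x ∈ g • P := h2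
    rw [Ideal.pointwise_smul_eq_comap, Ideal.mem_comap] at h2'
    have h3 : (MulSemiringAction.toRingEquiv G B g).symm (σ • g • x - g • x)
        = (g⁻¹ * σ * g) • x - x := by
      change g⁻¹ • (σ • g • x - g • x) = _
      rw [smul_sub, mul_smul, mul_smul, inv_smul_smul]
    rw [← h3]
    exact h2'
  rw [hunr, Subgroup.mem_bot] at h1
  have : σ = g * (g⁻¹ * σ * g) * g⁻¹ := by group
  rw [this, h1]; group

end General

section NF

variable (K : Type*) [Field K] [NumberField K] [IsGalois ℚ K] (H : Subgroup Gal(K/ℚ))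

theorem count_isGaloisGroup_fixed :
    IsGaloisGroup H (𝓞 (FixedPoints.intermediateField H : IntermediateField ℚ K)) (𝓞 K) :=
  IsGaloisGroup.of_isFractionRing H (𝓞 (FixedPoints.intermediateField H : IntermediateField ℚ K)) (𝓞 K)
    (FixedPoints.intermediateField H : IntermediateField ℚ K) K

variable {K H}

/-- elements of `H` fix the integers of the fixed field. -/
theorem count_smul_algebraMap (h : Gal(K/ℚ)) (hh : h ∈ H)
    (a : 𝓞 (FixedPoints.intermediateField H : IntermediateField ℚ K)) :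
    h • (algebraMap _ (𝓞 K) a) = algebraMap _ (𝓞 K) a := by
  have := count_isGaloisGroup_fixed K H
  have := smul_algebraMap (⟨h, hh⟩ : H) a (A := 𝓞 K)
  exact this

/-- (F2) if the Frobenius of `Q` lies in `H`, the prime below `Q` in the fixed field has norm `ℓ`. -/
theorem count_absNorm_under (Q : Ideal (𝓞 K)) [Q.IsPrime] {ℓ : ℕ} (hℓ : ℓ.Prime)
    (hQ : (ℓ : 𝓞 K) ∈ Q) (φ : Gal(K/ℚ)) (hφ : IsArithFrobAt ℤ φ Q) (hφH : φ ∈ H) :
    Ideal.absNorm (Q.under (𝓞 (FixedPoints.intermediateField H : IntermediateField ℚ K))) = ℓ := by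
  classical
  set A := 𝓞 (FixedPoints.intermediateField H : IntermediateField ℚ K) with hA
  set q := Q.under A with hq
  have hcard := count_card_under_int Q hℓ hQ
  -- every element satisfies a^ℓ - a ∈ q
  have hpow : ∀ a : A, a ^ ℓ - a ∈ q := by
    intro a
    rw [hq, Ideal.under_def, Ideal.mem_comap, map_sub, map_pow]
    have h1 := hφ (algebraMap A (𝓞 K) a)
    rw [hcard] at h1
    simp only [MulSemiringAction.toAlgHom_apply] at h1
    rw [count_smul_algebraMap φ hφH a] at h1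
    have := Q.neg_mem h1
    rwa [neg_sub] at this
  have hℓq : (ℓ : A) ∈ q := by
    rw [hq, Ideal.under_def, Ideal.mem_comap, map_natCast]; exact hQ
  have hqprime : q.IsPrime := inferInstance
  have hqne : q ≠ ⊥ := by
    intro h
    rw [h, Ideal.mem_bot] at hℓq
    exact hℓ.ne_zero (by exact_mod_cast hℓq)
  have hqmax : q.IsMaximal := hqprime.isMaximal hqne
  let _ := Ideal.Quotient.field q
  have hfin : Finite (A ⧸ q) := Ideal.finiteQuotientOfFreeOfNeBot q hqne
  cases nonempty_fintype (A ⧸ q)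
  have hchar : CharP (A ⧸ q) ℓ := by
    refine (CharP.charP_iff_prime_eq_zero hℓ).mpr ?_
    have : Ideal.Quotient.mk q (ℓ : A) = 0 := Ideal.Quotient.eq_zero_iff_mem.mpr hℓq
    rwa [map_natCast] at this
  obtain ⟨n, -, hn⟩ := FiniteField.card (A ⧸ q) ℓ
  have hle : Fintype.card (A ⧸ q) ≤ ℓ := by
    have hroots : (Finset.univ : Finset (A ⧸ q)).val ⊆ (Polynomial.X ^ ℓ - Polynomial.X : Polynomial (A ⧸ q)).roots := by
      intro x _
      rw [Polynomial.mem_roots (FiniteField.X_pow_card_sub_X_ne_zero (A ⧸ q) hℓ.one_lt)]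
      obtain ⟨a, rfl⟩ := Ideal.Quotient.mk_surjective x
      simp only [Polynomial.IsRoot.def, Polynomial.eval_sub, Polynomial.eval_pow, Polynomial.eval_X]
      rw [← map_pow, ← map_sub]
      exact Ideal.Quotient.eq_zero_iff_mem.mpr (hpow a)
    have := Polynomial.card_le_degree_of_subset_roots hroots
    rwa [FiniteField.X_pow_card_sub_X_natDegree_eq (A ⧸ q) hℓ.one_lt, Finset.card_univ] at this
  have hn1 : (n : ℕ) = 1 := by
    rw [hn] at hle
    by_contra hne
    have h2 : 2 ≤ (n : ℕ) := by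
      have := n.pos; omega
    have : ℓ ^ 2 ≤ ℓ ^ (n : ℕ) := Nat.pow_le_pow_right hℓ.pos h2
    have h3 : ℓ < ℓ ^ 2 := by
      have := hℓ.one_lt; nlinarith
    omega
  rw [Ideal.absNorm_apply, Submodule.cardQuot_apply, Nat.card_eq_fintype_card, hn, hn1, pow_one]


/-- (F4a) translating a prime by an element of `H` does not change the prime below. -/
theorem count_under_smul (h : Gal(K/ℚ)) (hh : h ∈ H) (Q : Ideal (𝓞 K)) :
    (h • Q).under (𝓞 (FixedPoints.intermediateField H : IntermediateField ℚ K))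
      = Q.under (𝓞 (FixedPoints.intermediateField H : IntermediateField ℚ K)) := by
  ext a
  rw [Ideal.under_def, Ideal.under_def, Ideal.mem_comap, Ideal.mem_comap,
    Ideal.pointwise_smul_eq_comap, Ideal.mem_comap]
  have h1 : (RingEquiv.symm ((MulSemiringAction.toRingAut Gal(K/ℚ) (𝓞 K)) h)) (algebraMap _ (𝓞 K) a)
      = h⁻¹ • (algebraMap _ (𝓞 K) a) := rfl
  rw [h1, count_smul_algebraMap h⁻¹ (H.inv_mem hh) a]

/-- (F3) every ideal of norm `ℓ` of the fixed field lies below a conjugate `g • P` with Frobenius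
in `H`. -/
theorem count_exists_of_absNorm (P : Ideal (𝓞 K)) [P.IsPrime] {ℓ : ℕ} (hℓ : ℓ.Prime)
    (hP : (ℓ : 𝓞 K) ∈ P) (hunr : P.inertia Gal(K/ℚ) = ⊥) (τ : Gal(K/ℚ))
    (hτ : IsArithFrobAt ℤ τ P)
    (I : Ideal (𝓞 (FixedPoints.intermediateField H : IntermediateField ℚ K)))
    (hI : Ideal.absNorm I = ℓ) :
    ∃ g : Gal(K/ℚ), g * τ * g⁻¹ ∈ H ∧
      (g • P).under (𝓞 (FixedPoints.intermediateField H : IntermediateField ℚ K)) = I := by
  classical
  set A := 𝓞 (FixedPoints.intermediateField H : IntermediateField ℚ K) with hA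
  have hIprime : I.IsPrime := Ideal.isPrime_of_irreducible_absNorm (by rw [hI]; exact hℓ)
  have hℓI : (ℓ : A) ∈ I := by
    have := Ideal.absNorm_mem I
    rwa [hI] at this
  obtain ⟨Q, -, hQprime, hQI⟩ := Ideal.exists_ideal_over_prime_of_isIntegral I (⊥ : Ideal (𝓞 K))
    (by rw [Ideal.comap_bot_of_injective _ (FaithfulSMul.algebraMap_injective A (𝓞 K))]; exact bot_le)
  have hℓQ : (ℓ : 𝓞 K) ∈ Q := by
    have : (ℓ : A) ∈ Q.comap (algebraMap A (𝓞 K)) := by rw [hQI]; exact hℓI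
    rw [Ideal.mem_comap, map_natCast] at this
    exact this
  obtain ⟨g, hg⟩ := Algebra.IsInvariant.exists_smul_of_under_eq ℤ (𝓞 K) Gal(K/ℚ) P Q
    (by rw [count_under_int_eq P hℓ hP, count_under_int_eq Q hℓ hℓQ])
  refine ⟨g, ?_, by rw [← hg]; exact hQI⟩
  -- a Frobenius at `Q` inside `H`
  have hG := count_isGaloisGroup_fixed K H
  have hQne : Q ≠ ⊥ := by
    intro h
    rw [h, Ideal.mem_bot] at hℓQ
    exact hℓ.ne_zero (by exact_mod_cast hℓQ)
  have hfinQ : Finite (𝓞 K ⧸ Q) := Ideal.finiteQuotientOfFreeOfNeBot Q hQne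
  obtain ⟨σ, hσ⟩ := IsArithFrobAt.exists_of_isInvariant A H Q
  have hσ' : IsArithFrobAt ℤ (σ : Gal(K/ℚ)) Q := by
    intro x
    have h1 := hσ x
    have h2 : Nat.card (A ⧸ Q.under A) = ℓ := by
      have : Q.under A = I := hQI
      rw [this, ← hI, Ideal.absNorm_apply, Submodule.cardQuot_apply]
    rw [h2] at h1
    rw [count_card_under_int Q hℓ hℓQ]
    exact h1
  have hconj : IsArithFrobAt ℤ (g * τ * g⁻¹) Q := by
    rw [hg]; exact hτ.conj g
  have hin := hconj.mul_inv_mem_inertia hσ'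
  rw [hg, count_inertia_smul P hunr g, Subgroup.mem_bot, mul_inv_eq_one] at hin
  rw [hin]
  exact σ.2

omit [IsGalois ℚ K] in
/-- `ℓ` belongs to every conjugate of a prime containing `ℓ`. -/
theorem count_natCast_mem_smul (P : Ideal (𝓞 K)) {ℓ : ℕ} (hP : (ℓ : 𝓞 K) ∈ P) (g : Gal(K/ℚ)) :
    (ℓ : 𝓞 K) ∈ g • P := by
  rw [Ideal.pointwise_smul_eq_comap, Ideal.mem_comap, map_natCast]
  exact hP

/-- **P2**: `|H| · #{ideals of norm ℓ of K^H} = #{g : g τ g⁻¹ ∈ H}` for an unramified prime `P`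
over `ℓ` with Frobenius `τ`. -/
theorem card_mul_idealCount (K : Type*) [Field K] [NumberField K] [IsGalois ℚ K]
    (H : Subgroup Gal(K/ℚ)) (ℓ : ℕ) (hℓ : ℓ.Prime) (P : Ideal (𝓞 K)) [P.IsPrime]
    (hP : (ℓ : 𝓞 K) ∈ P) (hunr : P.inertia Gal(K/ℚ) = ⊥)
    (τ : Gal(K/ℚ)) (hτ : IsArithFrobAt ℤ τ P) :
    Nat.card H * idealCount (FixedPoints.intermediateField H : IntermediateField ℚ K) ℓ
      = Nat.card {g : Gal(K/ℚ) // g * τ * g⁻¹ ∈ H} := by
  classical
  set A := 𝓞 (FixedPoints.intermediateField H : IntermediateField ℚ K) with hA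
  have hG := count_isGaloisGroup_fixed K H
  have hPne : P ≠ ⊥ := by
    intro h
    rw [h, Ideal.mem_bot] at hP
    exact hℓ.ne_zero (by exact_mod_cast hP)
  have hfinP : Finite (𝓞 K ⧸ P) := Ideal.finiteQuotientOfFreeOfNeBot P hPne
  have hmaxℤ : (P.under ℤ).IsMaximal := by
    rw [count_under_int_eq P hℓ hP]
    exact PrincipalIdealRing.isMaximal_of_irreducible (Nat.prime_iff_prime_int.mp hℓ).irreducible
  choose s hs1 hs2 using fun I : {I : Ideal A // Ideal.absNorm I = ℓ} =>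
    count_exists_of_absNorm (H := H) P hℓ hP hunr τ hτ I.1 I.2
  have hmem : ∀ (h : H) (I : {I : Ideal A // Ideal.absNorm I = ℓ}),
      ((h : Gal(K/ℚ)) * s I) * τ * ((h : Gal(K/ℚ)) * s I)⁻¹ ∈ H := by
    intro h I
    have : ((h : Gal(K/ℚ)) * s I) * τ * ((h : Gal(K/ℚ)) * s I)⁻¹
        = (h : Gal(K/ℚ)) * (s I * τ * (s I)⁻¹) * (h : Gal(K/ℚ))⁻¹ := by group
    rw [this]
    exact H.mul_mem (H.mul_mem h.2 (hs1 I)) (H.inv_mem h.2)
  let Ψ : H × {I : Ideal A // Ideal.absNorm I = ℓ} → {g : Gal(K/ℚ) // g * τ * g⁻¹ ∈ H} :=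
    fun x => ⟨(x.1 : Gal(K/ℚ)) * s x.2, hmem x.1 x.2⟩
  have hunder : ∀ (h : H) (I : {I : Ideal A // Ideal.absNorm I = ℓ}),
      ((((h : Gal(K/ℚ)) * s I) • P).under A) = I.1 := by
    intro h I
    rw [mul_smul, count_under_smul (h : Gal(K/ℚ)) h.2, hs2 I]
  have hΨ : Function.Bijective Ψ := by
    constructor
    · rintro ⟨h, I⟩ ⟨h', I'⟩ hx
      have hx' : (h : Gal(K/ℚ)) * s I = (h' : Gal(K/ℚ)) * s I' := congrArg Subtype.val hx
      have hII : I = I' := by
        apply Subtype.ext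
        rw [← hunder h I, ← hunder h' I', hx']
      subst hII
      have : (h : Gal(K/ℚ)) = h' := mul_right_cancel hx'
      rw [Subtype.ext this]
    · rintro ⟨g, hg⟩
      have hfrob : IsArithFrobAt ℤ (g * τ * g⁻¹) (g • P) := hτ.conj g
      let I : {I : Ideal A // Ideal.absNorm I = ℓ} :=
        ⟨(g • P).under A, count_absNorm_under (g • P) hℓ (count_natCast_mem_smul P hP g) _ hfrob hg⟩
      obtain ⟨h, hh⟩ := Algebra.IsInvariant.exists_smul_of_under_eq A (𝓞 K) H (s I • P) (g • P)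
        (by rw [hs2 I])
      have hh' : g • P = ((h : Gal(K/ℚ)) * s I) • P := by
        rw [mul_smul]; exact hh
      have hstab : (((h : Gal(K/ℚ)) * s I)⁻¹ * g) • P = P := by
        rw [mul_smul, hh', inv_smul_smul]
      obtain ⟨k, hk⟩ := Subgroup.mem_zpowers_iff.mp
        (count_stab_mem_zpowers P hunr τ hτ _ hstab)
      have hgeq : g = (h : Gal(K/ℚ)) * (s I * τ * (s I)⁻¹) ^ k * s I := by
        have h1 : g = ((h : Gal(K/ℚ)) * s I) * τ ^ k := by
          rw [hk]; group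
        rw [h1, conj_zpow]; group
      have hmemk : (h : Gal(K/ℚ)) * (s I * τ * (s I)⁻¹) ^ k ∈ H :=
        H.mul_mem h.2 (H.zpow_mem (hs1 I) k)
      refine ⟨(⟨_, hmemk⟩, I), ?_⟩
      apply Subtype.ext
      change (h : Gal(K/ℚ)) * (s I * τ * (s I)⁻¹) ^ k * s I = g
      exact hgeq.symm
  rw [idealCount, ← Nat.card_prod]
  exact Nat.card_congr (Equiv.ofBijective Ψ hΨ)

end NF

end Fermat.Agent.Cheb
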