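import Fermat.Agent.Cheb.PrimeOf

open NumberField Filter Topology Ideal IsDedekindDomain

namespace Fermat.Agent.Cheb

variable {M : Type*} [Field M] [NumberField M]

theorem summable_nat_rpow_neg_two : Summable (fun m : ℕ ↦ (m : ℝ) ^ (-2 : ℝ)) :=
  Real.summable_nat_rpow.mpr (by norm_num)

/-- the constant bounding all error terms: `[M:ℚ] · ∑ m^{-2}`. -/
noncomputable def errConst (M : Type*) [Field M] [NumberField M] : ℝ :=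
  Module.finrank ℚ M * ∑' m : ℕ, (m : ℝ) ^ (-2 : ℝ)

theorem errConst_nonneg : 0 ≤ errConst M :=
  mul_nonneg (Nat.cast_nonneg _) (tsum_nonneg fun _ ↦ Real.rpow_nonneg (Nat.cast_nonneg _) _)

theorem sum_le_errConst (g : HeightOneSpectrum (𝓞 M) → ℝ)
    (hg : ∀ 𝔭, g 𝔭 ≤ ((primeOf 𝔭 : ℕ) : ℝ) ^ (-2 : ℝ)) (T : Finset (HeightOneSpectrum (𝓞 M))) :
    ∑ 𝔭 ∈ T, g 𝔭 ≤ errConst M := by
  classical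
  calc ∑ 𝔭 ∈ T, g 𝔭 ≤ ∑ 𝔭 ∈ T, ((primeOf 𝔭 : ℕ) : ℝ) ^ (-2 : ℝ) :=
        Finset.sum_le_sum fun 𝔭 _ ↦ hg 𝔭
    _ = ∑ ℓ ∈ T.image primeOf, ∑ 𝔭 ∈ T with primeOf 𝔭 = ℓ, ((primeOf 𝔭 : ℕ) : ℝ) ^ (-2 : ℝ) :=
        (Finset.sum_fiberwise_of_maps_to (fun 𝔭 h𝔭 ↦ Finset.mem_image_of_mem _ h𝔭) _).symm
    _ ≤ ∑ ℓ ∈ T.image primeOf, (Module.finrank ℚ M : ℝ) * ((ℓ : ℕ) : ℝ) ^ (-2 : ℝ) := by
        refine Finset.sum_le_sum fun ℓ hℓ ↦ ?_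
        obtain ⟨𝔮, _, h𝔮⟩ := Finset.mem_image.mp hℓ
        have hprime : ℓ.Prime := h𝔮 ▸ primeOf_prime 𝔮
        have hcard : (T.filter (fun 𝔭 ↦ primeOf 𝔭 = ℓ)).card ≤ Module.finrank ℚ M := by
          refine card_le_finrank_of_mem hprime _ fun 𝔭 h𝔭 ↦ ?_
          have := (Finset.mem_filter.mp h𝔭).2
          exact this ▸ primeOf_mem 𝔭
        calc ∑ 𝔭 ∈ T with primeOf 𝔭 = ℓ, ((primeOf 𝔭 : ℕ) : ℝ) ^ (-2 : ℝ)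
            = ∑ 𝔭 ∈ T with primeOf 𝔭 = ℓ, ((ℓ : ℕ) : ℝ) ^ (-2 : ℝ) :=
              Finset.sum_congr rfl fun 𝔭 h𝔭 ↦ by rw [(Finset.mem_filter.mp h𝔭).2]
          _ = ((T.filter (fun 𝔭 ↦ primeOf 𝔭 = ℓ)).card : ℝ) * ((ℓ : ℕ) : ℝ) ^ (-2 : ℝ) := by
              rw [Finset.sum_const, nsmul_eq_mul]
          _ ≤ (Module.finrank ℚ M : ℝ) * ((ℓ : ℕ) : ℝ) ^ (-2 : ℝ) :=
              mul_le_mul_of_nonneg_right (by exact_mod_cast hcard)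
                (Real.rpow_nonneg (Nat.cast_nonneg _) _)
    _ = (Module.finrank ℚ M : ℝ) * ∑ ℓ ∈ T.image primeOf, ((ℓ : ℕ) : ℝ) ^ (-2 : ℝ) := by
        rw [Finset.mul_sum]
    _ ≤ errConst M := by
        refine mul_le_mul_of_nonneg_left ?_ (Nat.cast_nonneg _)
        exact summable_nat_rpow_neg_two.sum_le_tsum _
          (fun _ _ ↦ Real.rpow_nonneg (Nat.cast_nonneg _) _)

theorem summable_of_le_primeOf (g : HeightOneSpectrum (𝓞 M) → ℝ) (hg0 : ∀ 𝔭, 0 ≤ g 𝔭)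
    (hg : ∀ 𝔭, g 𝔭 ≤ ((primeOf 𝔭 : ℕ) : ℝ) ^ (-2 : ℝ)) : Summable g :=
  summable_of_sum_le hg0 (sum_le_errConst g hg)

theorem tsum_le_errConst (g : HeightOneSpectrum (𝓞 M) → ℝ) (hg0 : ∀ 𝔭, 0 ≤ g 𝔭)
    (hg : ∀ 𝔭, g 𝔭 ≤ ((primeOf 𝔭 : ℕ) : ℝ) ^ (-2 : ℝ)) : ∑' 𝔭, g 𝔭 ≤ errConst M :=
  Real.tsum_le_of_sum_le hg0 (sum_le_errConst g hg)

/-- `N^{-t} ≤ ℓ^{-2}` whenever `ℓ^2 ≤ N^?`... basic comparison. -/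
theorem rpow_neg_le_rpow_neg_two {N ℓ : ℕ} (hℓ : 1 ≤ ℓ) {t : ℝ} (ht : 1 ≤ t)
    (h : ℓ ^ 2 ≤ N) : ((N : ℕ) : ℝ) ^ (-t) ≤ ((ℓ : ℕ) : ℝ) ^ (-2 : ℝ) := by
  have hℓ' : (1 : ℝ) ≤ (ℓ : ℝ) := by exact_mod_cast hℓ
  have hN : ((ℓ : ℝ)) ^ (2 : ℝ) ≤ (N : ℝ) := by
    rw [Real.rpow_two]; exact_mod_cast h
  have hNpos : (0 : ℝ) < (N : ℝ) := lt_of_lt_of_le (by positivity) hN
  have h1 : (1 : ℝ) ≤ (N : ℝ) := le_trans (by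
    have := Real.one_le_rpow hℓ' (by norm_num : (0:ℝ) ≤ 2); exact this) hN
  calc ((N : ℕ) : ℝ) ^ (-t) ≤ ((N : ℕ) : ℝ) ^ (-1 : ℝ) :=
        Real.rpow_le_rpow_of_exponent_le h1 (by linarith)
    _ ≤ ((ℓ : ℝ) ^ (2 : ℝ)) ^ (-1 : ℝ) :=
        Real.rpow_le_rpow_of_nonpos (by positivity) hN (by norm_num)
    _ = ((ℓ : ℕ) : ℝ) ^ (-2 : ℝ) := by
        rw [← Real.rpow_mul (by positivity)]; norm_num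

theorem xP_sq_le_primeOf {s : ℝ} (hs : 1 ≤ s) (𝔭 : HeightOneSpectrum (𝓞 M)) :
    (xP M s 𝔭) ^ 2 ≤ ((primeOf 𝔭 : ℕ) : ℝ) ^ (-2 : ℝ) := by
  have hℓ := (primeOf_prime 𝔭).one_le
  have hle := primeOf_le_absNorm 𝔭
  have hNpos : (0 : ℝ) < (absNorm 𝔭.asIdeal : ℝ) := by
    exact_mod_cast lt_of_lt_of_le (primeOf_prime 𝔭).pos hle
  have e : (xP M s 𝔭) ^ 2 = (((absNorm 𝔭.asIdeal ^ 2 : ℕ) : ℕ) : ℝ) ^ (-s) := by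
    rw [xP, Nat.cast_pow, ← Real.rpow_natCast, ← Real.rpow_natCast, ← Real.rpow_mul hNpos.le,
      ← Real.rpow_mul hNpos.le, mul_comm]
  rw [e]
  exact rpow_neg_le_rpow_neg_two hℓ hs (Nat.pow_le_pow_left hle 2)

theorem xP_le_primeOf_of_not_prime {s : ℝ} (hs : 1 ≤ s) (𝔭 : HeightOneSpectrum (𝓞 M))
    (h : ¬ (absNorm 𝔭.asIdeal).Prime) :
    xP M s 𝔭 ≤ ((primeOf 𝔭 : ℕ) : ℝ) ^ (-2 : ℝ) :=
  rpow_neg_le_rpow_neg_two (primeOf_prime 𝔭).one_le hs (primeOf_sq_le_absNorm 𝔭 h)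

end Fermat.Agent.Cheb
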