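import Fermat.Agent.Cheb.EulerLower

open NumberField Filter Topology Ideal IsDedekindDomain

namespace Fermat.Agent.Cheb

variable {M : Type*} [Field M] [NumberField M]

theorem xP_le_one {s : ℝ} (hs : 1 ≤ s) (𝔭 : HeightOneSpectrum (𝓞 M)) : xP M s 𝔭 ≤ 1 :=
  (xP_le_half hs 𝔭).trans (by norm_num)

theorem summable_xP {s : ℝ} (hs : 1 < s) : Summable (xP M s) :=
  (summable_norm_rpow M hs).comp_injective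
    (i := fun 𝔭 : HeightOneSpectrum (𝓞 M) ↦ 𝔭.asIdeal) (fun _ _ h ↦ HeightOneSpectrum.ext h)

theorem xP_sq_le {s : ℝ} (hs : 1 ≤ s) (𝔭 : HeightOneSpectrum (𝓞 M)) :
    (xP M s 𝔭) ^ 2 ≤ xP M s 𝔭 := by
  have h0 := xP_nonneg s 𝔭
  have h1 := xP_le_one hs 𝔭
  nlinarith

theorem summable_xP_sq {s : ℝ} (hs : 1 < s) : Summable (fun 𝔭 ↦ (xP M s 𝔭) ^ 2) :=
  (summable_xP hs).of_nonneg_of_le (fun _ ↦ sq_nonneg _) (fun 𝔭 ↦ xP_sq_le hs.le 𝔭)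

theorem zetaR_le_exp {s : ℝ} (hs : 1 < s) :
    zetaR M s ≤ Real.exp (∑' 𝔭, xP M s 𝔭 + 2 * ∑' 𝔭, (xP M s 𝔭) ^ 2) := by
  refine Real.tsum_le_of_sum_le (fun _ ↦ Real.rpow_nonneg (Nat.cast_nonneg _) _) fun F ↦ ?_
  obtain ⟨T, hT⟩ := sum_le_prod_inv hs F
  refine hT.trans ?_
  calc ∏ 𝔭 ∈ T, (1 - xP M s 𝔭)⁻¹
      ≤ ∏ 𝔭 ∈ T, Real.exp (xP M s 𝔭 + 2 * (xP M s 𝔭) ^ 2) := by
        refine Finset.prod_le_prod (fun 𝔭 _ ↦ ?_) fun 𝔭 _ ↦ ?_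
        · have := xP_le_half hs.le 𝔭
          exact inv_nonneg.mpr (by linarith)
        · exact inv_one_sub_le_exp (xP_nonneg s 𝔭) (xP_le_half hs.le 𝔭)
    _ = Real.exp (∑ 𝔭 ∈ T, (xP M s 𝔭 + 2 * (xP M s 𝔭) ^ 2)) := (Real.exp_sum _ _).symm
    _ ≤ Real.exp (∑' 𝔭, xP M s 𝔭 + 2 * ∑' 𝔭, (xP M s 𝔭) ^ 2) := by
        rw [Real.exp_le_exp, Finset.sum_add_distrib, ← Finset.mul_sum]
        have h1 := (summable_xP (M := M) hs).sum_le_tsum T (fun 𝔭 _ ↦ xP_nonneg s 𝔭)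
        have h2 := (summable_xP_sq (M := M) hs).sum_le_tsum T (fun 𝔭 _ ↦ sq_nonneg _)
        linarith

theorem log_zetaR_le {s : ℝ} (hs : 1 < s) :
    Real.log (zetaR M s) ≤ ∑' 𝔭, xP M s 𝔭 + 2 * ∑' 𝔭, (xP M s 𝔭) ^ 2 := by
  have hZ : 0 < zetaR M s := lt_of_lt_of_le one_pos (one_le_zetaR M hs)
  rw [← Real.exp_le_exp, Real.exp_log hZ]
  exact zetaR_le_exp hs

theorem sum_xP_le {s : ℝ} (hs : 1 < s) (T : Finset (HeightOneSpectrum (𝓞 M))) :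
    ∑ 𝔭 ∈ T, xP M s 𝔭 ≤ Real.log (zetaR M s) + ∑ 𝔭 ∈ T, (xP M s 𝔭) ^ 2 := by
  have hZ : 0 < zetaR M s := lt_of_lt_of_le one_pos (one_le_zetaR M hs)
  have h1 : Real.exp (∑ 𝔭 ∈ T, (xP M s 𝔭 - (xP M s 𝔭) ^ 2)) ≤ zetaR M s := by
    rw [Real.exp_sum]
    refine le_trans (Finset.prod_le_prod (fun _ _ ↦ (Real.exp_pos _).le) fun 𝔭 _ ↦ ?_)
      (prod_one_add_le_zetaR hs T)
    exact exp_sub_sq_le (xP_nonneg s 𝔭) (xP_le_one hs.le 𝔭)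
  have h2 : ∑ 𝔭 ∈ T, (xP M s 𝔭 - (xP M s 𝔭) ^ 2) ≤ Real.log (zetaR M s) := by
    rw [← Real.exp_le_exp, Real.exp_log hZ]; exact h1
  rw [Finset.sum_sub_distrib] at h2
  linarith

theorem tsum_xP_le {s : ℝ} (hs : 1 < s) :
    ∑' 𝔭, xP M s 𝔭 ≤ Real.log (zetaR M s) + ∑' 𝔭, (xP M s 𝔭) ^ 2 := by
  refine Real.tsum_le_of_sum_le (fun 𝔭 ↦ xP_nonneg s 𝔭) fun T ↦ ?_
  have h1 := sum_xP_le (M := M) hs T
  have h2 := (summable_xP_sq (M := M) hs).sum_le_tsum T (fun 𝔭 _ ↦ sq_nonneg _)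
  linarith

end Fermat.Agent.Cheb
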