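import Fermat.Agent.Cheb.EulerUpper

open NumberField Filter Topology Ideal IsDedekindDomain

namespace Fermat.Agent.Cheb

variable {M : Type*} [Field M] [NumberField M]

theorem ideal_eq_prod_multiplicity {I : Ideal (𝓞 M)} (hI : I ≠ ⊥)
    (T : Finset (HeightOneSpectrum (𝓞 M)))
    (hT : ∀ 𝔭 : HeightOneSpectrum (𝓞 M), 𝔭.asIdeal ∣ I → 𝔭 ∈ T) :
    ∏ 𝔭 ∈ T, 𝔭.asIdeal ^ multiplicity 𝔭.asIdeal I = I := by
  conv_rhs => rw [← Ideal.finprod_heightOneSpectrum_pow_multiplicity hI]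
  symm
  refine finprod_eq_prod_of_mulSupport_subset _ ?_
  intro 𝔭 h𝔭
  rw [Function.mem_mulSupport] at h𝔭
  refine hT 𝔭 ?_
  by_contra hnd
  exact h𝔭 (by rw [multiplicity_eq_zero.mpr hnd, pow_zero])

theorem norm_rpow_eq_prod {I : Ideal (𝓞 M)} (hI : I ≠ ⊥) (s : ℝ)
    (T : Finset (HeightOneSpectrum (𝓞 M)))
    (hT : ∀ 𝔭 : HeightOneSpectrum (𝓞 M), 𝔭.asIdeal ∣ I → 𝔭 ∈ T) :
    ((absNorm I : ℕ) : ℝ) ^ (-s) = ∏ 𝔭 ∈ T, (xP M s 𝔭) ^ multiplicity 𝔭.asIdeal I := by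
  conv_lhs => rw [← ideal_eq_prod_multiplicity hI T hT]
  rw [map_prod, Nat.cast_prod, ← Real.finsetProd_rpow _ _ (fun _ _ ↦ Nat.cast_nonneg _)]
  refine Finset.prod_congr rfl fun 𝔭 _ ↦ ?_
  rw [map_pow, Nat.cast_pow, xP, ← Real.rpow_natCast, ← Real.rpow_natCast,
    ← Real.rpow_mul (Nat.cast_nonneg _), ← Real.rpow_mul (Nat.cast_nonneg _), mul_comm]

theorem geom_le_inv {x : ℝ} (hx0 : 0 ≤ x) (hx1 : x < 1) (n : ℕ) :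
    ∑ j ∈ Finset.range n, x ^ j ≤ (1 - x)⁻¹ := by
  have h1 : 0 < 1 - x := by linarith
  have h2 := geom_sum_mul_neg x n
  rw [show (1 - x)⁻¹ = 1 / (1 - x) from (one_div _).symm, le_div_iff₀ h1, h2]
  have : 0 ≤ x ^ n := pow_nonneg hx0 n
  linarith

theorem inv_one_sub_le_exp {x : ℝ} (hx0 : 0 ≤ x) (hx1 : x ≤ 1 / 2) :
    (1 - x)⁻¹ ≤ Real.exp (x + 2 * x ^ 2) := by
  have h1 : 0 < 1 - x := by linarith
  have h2 : (1 - x)⁻¹ = Real.exp (Real.log ((1 - x)⁻¹)) := (Real.exp_log (by positivity)).symm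
  rw [h2, Real.exp_le_exp]
  have h3 := Real.log_le_sub_one_of_pos (x := (1 - x)⁻¹) (by positivity)
  refine h3.trans ?_
  rw [show (1 - x)⁻¹ - 1 = x / (1 - x) by field_simp; ring, div_le_iff₀ h1]
  nlinarith [sq_nonneg x, mul_nonneg hx0 (sq_nonneg x)]

theorem exp_sub_sq_le {x : ℝ} (hx0 : 0 ≤ x) (_hx1 : x ≤ 1) :
    Real.exp (x - x ^ 2) ≤ 1 + x := by
  have h1 : 0 < 1 - x + x ^ 2 := by nlinarith
  have h2 : Real.exp (x - x ^ 2) ≤ (1 - x + x ^ 2)⁻¹ := by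
    rw [le_inv_comm₀ (Real.exp_pos _) h1, ← Real.exp_neg]
    have := Real.add_one_le_exp (-(x - x ^ 2))
    linarith
  refine h2.trans ?_
  rw [inv_le_comm₀ h1 (by linarith)]
  rw [inv_le_iff_one_le_mul₀ (by linarith)]
  nlinarith [pow_nonneg hx0 3]

/-- every finite partial sum of `ζ_M(s)` is bounded by a finite Euler product. -/
theorem sum_le_prod_inv {s : ℝ} (hs : 1 < s) (F : Finset (Ideal (𝓞 M))) :
    ∃ T : Finset (HeightOneSpectrum (𝓞 M)),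
      ∑ I ∈ F, ((absNorm I : ℕ) : ℝ) ^ (-s) ≤ ∏ 𝔭 ∈ T, (1 - xP M s 𝔭)⁻¹ := by
  classical
  set F' := F.filter (fun I ↦ I ≠ ⊥) with hF'
  have hsum : ∑ I ∈ F, ((absNorm I : ℕ) : ℝ) ^ (-s) = ∑ I ∈ F', ((absNorm I : ℕ) : ℝ) ^ (-s) := by
    rw [hF', Finset.sum_filter]
    refine Finset.sum_congr rfl fun I _ ↦ ?_
    by_cases h : I = ⊥
    · simp [h, Real.zero_rpow (by linarith : -s ≠ 0)]
    · simp [h]
  -- the primes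
  let Tset : Ideal (𝓞 M) → Finset (HeightOneSpectrum (𝓞 M)) := fun I ↦
    if hI : I ≠ ⊥ then (Ideal.finite_factors hI).toFinset else ∅
  set T := F'.biUnion Tset with hT
  have hTmem : ∀ I ∈ F', ∀ 𝔭 : HeightOneSpectrum (𝓞 M), 𝔭.asIdeal ∣ I → 𝔭 ∈ T := by
    intro I hI 𝔭 h𝔭
    have hI0 : I ≠ ⊥ := (Finset.mem_filter.mp hI).2
    rw [hT, Finset.mem_biUnion]
    refine ⟨I, hI, ?_⟩
    simp only [Tset, dif_pos hI0, Set.Finite.mem_toFinset, Set.mem_ofPred_eq]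
    exact h𝔭
  obtain ⟨E, hE⟩ := Finset.exists_le
    ((F' ×ˢ T).image (fun p : Ideal (𝓞 M) × HeightOneSpectrum (𝓞 M) ↦
      multiplicity p.2.asIdeal p.1))
  have hEle : ∀ I ∈ F', ∀ 𝔭 ∈ T, multiplicity 𝔭.asIdeal I ≤ E := by
    intro I hI 𝔭 h𝔭
    refine hE _ (Finset.mem_image.mpr ⟨(I, 𝔭), Finset.mem_product.mpr ⟨hI, h𝔭⟩, rfl⟩)
  refine ⟨T, ?_⟩
  rw [hsum]
  let φ : Ideal (𝓞 M) → (∀ a : HeightOneSpectrum (𝓞 M), a ∈ T → ℕ) :=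
    fun I 𝔭 _ ↦ multiplicity 𝔭.asIdeal I
  have hφinj : Set.InjOn φ F' := by
    intro I hI J hJ h
    have hI0 : I ≠ ⊥ := (Finset.mem_filter.mp (Finset.mem_coe.mp hI)).2
    have hJ0 : J ≠ ⊥ := (Finset.mem_filter.mp (Finset.mem_coe.mp hJ)).2
    rw [← ideal_eq_prod_multiplicity hI0 T (hTmem I hI),
      ← ideal_eq_prod_multiplicity hJ0 T (hTmem J hJ)]
    refine Finset.prod_congr rfl fun 𝔭 h𝔭 ↦ ?_
    have := congrFun (congrFun h 𝔭) h𝔭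
    simp only [φ] at this
    rw [this]
  have hterm : ∀ I ∈ F', ((absNorm I : ℕ) : ℝ) ^ (-s)
      = ∏ 𝔭 ∈ T.attach, (xP M s 𝔭.1) ^ (φ I 𝔭.1 𝔭.2) := by
    intro I hI
    have hI0 : I ≠ ⊥ := (Finset.mem_filter.mp hI).2
    rw [norm_rpow_eq_prod hI0 s T (hTmem I hI)]
    exact (Finset.prod_attach T (fun 𝔭 ↦ (xP M s 𝔭) ^ multiplicity 𝔭.asIdeal I)).symm
  calc ∑ I ∈ F', ((absNorm I : ℕ) : ℝ) ^ (-s)
      = ∑ I ∈ F', ∏ 𝔭 ∈ T.attach, (xP M s 𝔭.1) ^ (φ I 𝔭.1 𝔭.2) :=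
        Finset.sum_congr rfl hterm
    _ = ∑ k ∈ F'.image φ, ∏ 𝔭 ∈ T.attach, (xP M s 𝔭.1) ^ (k 𝔭.1 𝔭.2) :=
        (Finset.sum_image (f := fun k ↦ ∏ 𝔭 ∈ T.attach, (xP M s 𝔭.1) ^ (k 𝔭.1 𝔭.2))
          (fun I hI J hJ h ↦ hφinj hI hJ h)).symm
    _ ≤ ∑ k ∈ T.pi (fun _ ↦ Finset.range (E + 1)),
          ∏ 𝔭 ∈ T.attach, (xP M s 𝔭.1) ^ (k 𝔭.1 𝔭.2) := by
        refine Finset.sum_le_sum_of_subset_of_nonneg ?_ ?_
        · intro k hk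
          obtain ⟨I, hI, rfl⟩ := Finset.mem_image.mp hk
          rw [Finset.mem_pi]
          intro 𝔭 h𝔭
          rw [Finset.mem_range]
          exact Nat.lt_succ_of_le (hEle I hI 𝔭 h𝔭)
        · intro k _ _
          exact Finset.prod_nonneg fun 𝔭 _ ↦ pow_nonneg (xP_nonneg s _) _
    _ = ∏ 𝔭 ∈ T, ∑ j ∈ Finset.range (E + 1), (xP M s 𝔭) ^ j :=
        (Finset.prod_sum T (fun _ ↦ Finset.range (E + 1)) (fun 𝔭 j ↦ (xP M s 𝔭) ^ j)).symm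
    _ ≤ ∏ 𝔭 ∈ T, (1 - xP M s 𝔭)⁻¹ := by
        refine Finset.prod_le_prod (fun 𝔭 _ ↦ Finset.sum_nonneg fun j _ ↦
          pow_nonneg (xP_nonneg s _) _) fun 𝔭 _ ↦ ?_
        exact geom_le_inv (xP_nonneg s 𝔭)
          (lt_of_le_of_lt (xP_le_half hs.le 𝔭) (by norm_num)) _

end Fermat.Agent.Cheb
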