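import Fermat.Agent.Cheb.ZetaBounds

open NumberField Filter Topology Ideal IsDedekindDomain

namespace Fermat.Agent.Cheb

variable (M : Type*) [Field M] [NumberField M]

/-- `N𝔭^{-s}` for a prime `𝔭` of `𝓞 M`. -/
noncomputable def xP (s : ℝ) (𝔭 : HeightOneSpectrum (𝓞 M)) : ℝ :=
  ((absNorm 𝔭.asIdeal : ℕ) : ℝ) ^ (-s)

variable {M}

theorem xP_nonneg (s : ℝ) (𝔭 : HeightOneSpectrum (𝓞 M)) : 0 ≤ xP M s 𝔭 :=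
  Real.rpow_nonneg (Nat.cast_nonneg _) _

theorem two_le_absNorm (𝔭 : HeightOneSpectrum (𝓞 M)) : 2 ≤ absNorm 𝔭.asIdeal := by
  have h0 : absNorm 𝔭.asIdeal ≠ 0 := by
    rw [Ne, absNorm_eq_zero_iff]; exact 𝔭.ne_bot
  have h1 : absNorm 𝔭.asIdeal ≠ 1 := by
    rw [Ne, absNorm_eq_one_iff]; exact 𝔭.isPrime.ne_top
  omega

theorem xP_le_half {s : ℝ} (hs : 1 ≤ s) (𝔭 : HeightOneSpectrum (𝓞 M)) : xP M s 𝔭 ≤ 1 / 2 := by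
  have h2 : (2:ℝ) ≤ (absNorm 𝔭.asIdeal : ℝ) := by exact_mod_cast two_le_absNorm 𝔭
  have hpos : (0:ℝ) < (absNorm 𝔭.asIdeal : ℝ) := by linarith
  rw [xP, Real.rpow_neg hpos.le, one_div]
  refine inv_anti₀ (by norm_num) ?_
  calc (2:ℝ) ≤ (absNorm 𝔭.asIdeal : ℝ) := h2
    _ = (absNorm 𝔭.asIdeal : ℝ) ^ (1:ℝ) := (Real.rpow_one _).symm
    _ ≤ (absNorm 𝔭.asIdeal : ℝ) ^ s := Real.rpow_le_rpow_of_exponent_le (by linarith) hs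

theorem prod_asIdeal_injective :
    Function.Injective (fun U : Finset (HeightOneSpectrum (𝓞 M)) ↦ ∏ 𝔭 ∈ U, 𝔭.asIdeal) := by
  have key : ∀ U V : Finset (HeightOneSpectrum (𝓞 M)),
      (∏ 𝔭 ∈ U, 𝔭.asIdeal) = ∏ 𝔭 ∈ V, 𝔭.asIdeal → U ⊆ V := by
    intro U V h 𝔮 h𝔮
    have hd : 𝔮.asIdeal ∣ ∏ 𝔭 ∈ V, 𝔭.asIdeal := h ▸ Finset.dvd_prod_of_mem _ h𝔮
    obtain ⟨𝔭, h𝔭, hdvd⟩ := (Prime.dvd_finsetProd_iff 𝔮.prime _).mp hd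
    have hle : 𝔭.asIdeal ≤ 𝔮.asIdeal := Ideal.le_of_dvd hdvd
    have : 𝔭.asIdeal = 𝔮.asIdeal := 𝔭.isMaximal.eq_of_le 𝔮.isPrime.ne_top hle
    have : 𝔭 = 𝔮 := HeightOneSpectrum.ext this
    exact this ▸ h𝔭
  intro U V h
  exact Finset.Subset.antisymm (key U V h) (key V U h.symm)

theorem prod_xP_eq (s : ℝ) (U : Finset (HeightOneSpectrum (𝓞 M))) :
    ∏ 𝔭 ∈ U, xP M s 𝔭 = ((absNorm (∏ 𝔭 ∈ U, 𝔭.asIdeal) : ℕ) : ℝ) ^ (-s) := by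
  rw [map_prod, Nat.cast_prod, ← Real.finsetProd_rpow _ _ (fun _ _ ↦ Nat.cast_nonneg _)]
  rfl

theorem prod_one_add_le_zetaR {s : ℝ} (hs : 1 < s) (T : Finset (HeightOneSpectrum (𝓞 M))) :
    ∏ 𝔭 ∈ T, (1 + xP M s 𝔭) ≤ zetaR M s := by
  classical
  rw [Finset.prod_one_add]
  simp_rw [prod_xP_eq]
  rw [← Finset.sum_image (f := fun I : Ideal (𝓞 M) ↦ ((absNorm I : ℕ) : ℝ) ^ (-s))
    (g := fun U : Finset (HeightOneSpectrum (𝓞 M)) ↦ ∏ 𝔭 ∈ U, 𝔭.asIdeal)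
    (fun U _ V _ h ↦ prod_asIdeal_injective h)]
  exact (summable_norm_rpow M hs).sum_le_tsum _
    (fun _ _ ↦ Real.rpow_nonneg (Nat.cast_nonneg _) _)

end Fermat.Agent.Cheb
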