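import Fermat.Agent.Cheb.ErrBound

open NumberField Filter Topology Ideal IsDedekindDomain

namespace Fermat.Agent.Cheb

variable (M : Type*) [Field M] [NumberField M]

theorem tsum_fiber_comp (φ : ℕ → ℝ) (n : ℕ) :
    ∑' y : {I : Ideal (𝓞 M) // absNorm I = n},
      ((fun I : Ideal (𝓞 M) ↦ φ (absNorm I)) ∘
        (Equiv.sigmaFiberEquiv (fun I : Ideal (𝓞 M) ↦ absNorm I))) ⟨n, y⟩
      = (idealCount M n : ℝ) * φ n := by
  simp only [Function.comp_apply, absNorm_sigmaFiberEquiv]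
  let _ : Fintype {I : Ideal (𝓞 M) // absNorm I = n} := Fintype.ofFinite _
  rw [tsum_fintype, Finset.sum_const, idealCount, Nat.card_eq_fintype_card]
  simp [Finset.card_univ]

theorem summable_comp_absNorm (φ : ℕ → ℝ) (hφ : ∀ n, 0 ≤ φ n)
    (hs : Summable fun n : ℕ ↦ (idealCount M n : ℝ) * φ n) :
    Summable (fun I : Ideal (𝓞 M) ↦ φ (absNorm I)) := by
  rw [← (Equiv.sigmaFiberEquiv (fun I : Ideal (𝓞 M) ↦ absNorm I)).summable_iff]
  refine (summable_sigma_of_nonneg (fun _ ↦ hφ _)).mpr ⟨fun n ↦ Summable.of_finite, ?_⟩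
  refine hs.congr fun n ↦ ?_
  exact (tsum_fiber_comp M φ n).symm

theorem tsum_comp_absNorm (φ : ℕ → ℝ) (hφ : ∀ n, 0 ≤ φ n)
    (hs : Summable fun n : ℕ ↦ (idealCount M n : ℝ) * φ n) :
    ∑' I : Ideal (𝓞 M), φ (absNorm I) = ∑' n : ℕ, (idealCount M n : ℝ) * φ n := by
  rw [← (Equiv.sigmaFiberEquiv (fun I : Ideal (𝓞 M) ↦ absNorm I)).tsum_eq]
  have hsum := (Equiv.sigmaFiberEquiv (fun I : Ideal (𝓞 M) ↦ absNorm I)).summable_iff.mpr
    (summable_comp_absNorm M φ hφ hs)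
  refine (Summable.tsum_sigma hsum).trans ?_
  exact tsum_congr fun n ↦ tsum_fiber_comp M φ n

/-- `n ↦ n^{-s}` cut off at the non-primes. -/
noncomputable def primeCut (s : ℝ) (n : ℕ) : ℝ := if n.Prime then (n : ℝ) ^ (-s) else 0

theorem primeCut_nonneg (s : ℝ) (n : ℕ) : 0 ≤ primeCut s n := by
  unfold primeCut; split_ifs
  · exact Real.rpow_nonneg (Nat.cast_nonneg _) _
  · exact le_rfl

theorem primeCut_le (s : ℝ) (n : ℕ) : primeCut s n ≤ (n : ℝ) ^ (-s) := by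
  unfold primeCut; split_ifs
  · exact le_rfl
  · exact Real.rpow_nonneg (Nat.cast_nonneg _) _

theorem summable_idealCount_primeCut {s : ℝ} (hs : 1 < s) :
    Summable fun n : ℕ ↦ (idealCount M n : ℝ) * primeCut s n :=
  (summable_idealCount_rpow M hs).of_nonneg_of_le
    (fun n ↦ mul_nonneg (Nat.cast_nonneg _) (primeCut_nonneg s n))
    (fun n ↦ mul_le_mul_of_nonneg_left (primeCut_le s n) (Nat.cast_nonneg _))

theorem tsum_idealCount_primeCut (s : ℝ) :
    ∑' n : ℕ, (idealCount M n : ℝ) * primeCut s n = primeSum M s := by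
  have hsupp : Function.support (fun n : ℕ ↦ (idealCount M n : ℝ) * primeCut s n)
      ⊆ {p : ℕ | p.Prime} := by
    intro n hn
    rw [Function.mem_support] at hn
    by_contra h
    exact hn (by simp [primeCut, show ¬ n.Prime from h])
  rw [← tsum_subtype_eq_of_support_subset hsupp, primeSum]
  refine tsum_congr fun ℓ ↦ ?_
  have hℓ : (ℓ : ℕ).Prime := ℓ.2
  simp [primeCut, hℓ]

theorem isPrime_of_prime_absNorm {I : Ideal (𝓞 M)} (h : (absNorm I).Prime) :
    ∃ 𝔭 : HeightOneSpectrum (𝓞 M), 𝔭.asIdeal = I := by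
  have h1 : I.IsPrime := Ideal.isPrime_of_irreducible_absNorm h
  have h2 : I ≠ ⊥ := by
    intro hI
    rw [hI, absNorm_bot] at h
    exact Nat.not_prime_zero h
  exact ⟨⟨I, h1, h2⟩, rfl⟩

theorem tsum_xP_prime {s : ℝ} (hs : 1 < s) :
    ∑' 𝔭 : HeightOneSpectrum (𝓞 M), primeCut s (absNorm 𝔭.asIdeal) = primeSum M s := by
  rw [← tsum_idealCount_primeCut,
    ← tsum_comp_absNorm M (primeCut s) (primeCut_nonneg s) (summable_idealCount_primeCut M hs)]
  refine Function.Injective.tsum_eq (g := fun 𝔭 : HeightOneSpectrum (𝓞 M) ↦ 𝔭.asIdeal)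
    (f := fun I : Ideal (𝓞 M) ↦ primeCut s (absNorm I)) (fun _ _ h ↦ HeightOneSpectrum.ext h) ?_
  intro I hI
  rw [Function.mem_support] at hI
  have : (absNorm I).Prime := by
    by_contra h
    exact hI (by simp [primeCut, h])
  obtain ⟨𝔭, h𝔭⟩ := isPrime_of_prime_absNorm M this
  exact ⟨𝔭, h𝔭⟩

end Fermat.Agent.Cheb
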