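import Fermat.Agent.Cheb.EulerLog

open NumberField Filter Topology Ideal IsDedekindDomain

namespace Fermat.Agent.Cheb

variable {M : Type*} [Field M] [NumberField M]

theorem exists_primeOf (𝔭 : HeightOneSpectrum (𝓞 M)) :
    ∃ ℓ : ℕ, ℓ.Prime ∧ ((ℓ : ℕ) : 𝓞 M) ∈ 𝔭.asIdeal ∧ ∃ f : ℕ, 0 < f ∧ absNorm 𝔭.asIdeal = ℓ ^ f := by
  have := 𝔭.isMaximal
  obtain ⟨p, n, hn, hp, hpp, h⟩ := Ideal.exists_prime_and_absNorm_eq_pow 𝔭.asIdeal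
  exact ⟨p, hpp, hp, n, hn, h⟩

/-- the rational prime below a prime of `𝓞 M`. -/
noncomputable def primeOf (𝔭 : HeightOneSpectrum (𝓞 M)) : ℕ := (exists_primeOf 𝔭).choose

theorem primeOf_prime (𝔭 : HeightOneSpectrum (𝓞 M)) : (primeOf 𝔭).Prime :=
  (exists_primeOf 𝔭).choose_spec.1

theorem primeOf_mem (𝔭 : HeightOneSpectrum (𝓞 M)) : ((primeOf 𝔭 : ℕ) : 𝓞 M) ∈ 𝔭.asIdeal :=
  (exists_primeOf 𝔭).choose_spec.2.1

theorem absNorm_eq_primeOf_pow (𝔭 : HeightOneSpectrum (𝓞 M)) :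
    ∃ f : ℕ, 0 < f ∧ absNorm 𝔭.asIdeal = (primeOf 𝔭) ^ f :=
  (exists_primeOf 𝔭).choose_spec.2.2

theorem primeOf_le_absNorm (𝔭 : HeightOneSpectrum (𝓞 M)) : primeOf 𝔭 ≤ absNorm 𝔭.asIdeal := by
  obtain ⟨f, hf, h⟩ := absNorm_eq_primeOf_pow 𝔭
  rw [h]
  exact Nat.le_self_pow hf.ne' _

theorem primeOf_sq_le_absNorm (𝔭 : HeightOneSpectrum (𝓞 M))
    (h : ¬ (absNorm 𝔭.asIdeal).Prime) : (primeOf 𝔭) ^ 2 ≤ absNorm 𝔭.asIdeal := by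
  obtain ⟨f, hf, hN⟩ := absNorm_eq_primeOf_pow 𝔭
  have hf2 : 2 ≤ f := by
    by_contra hlt
    have : f = 1 := by omega
    rw [this, pow_one] at hN
    exact h (hN ▸ primeOf_prime 𝔭)
  rw [hN]
  exact Nat.pow_le_pow_right (primeOf_prime 𝔭).pos hf2

theorem card_le_finrank_of_mem {ℓ : ℕ} (hℓ : ℓ.Prime) (T : Finset (HeightOneSpectrum (𝓞 M)))
    (h : ∀ 𝔭 ∈ T, ((ℓ : ℕ) : 𝓞 M) ∈ 𝔭.asIdeal) : T.card ≤ Module.finrank ℚ M := by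
  classical
  have hp0 : (Ideal.span {(ℓ : ℤ)}) ≠ ⊥ := by
    simpa using hℓ.ne_zero
  have : (Ideal.span {(ℓ : ℤ)}).IsMaximal :=
    ((Ideal.span_singleton_prime (by exact_mod_cast hℓ.ne_zero)).mpr
      (Nat.prime_iff_prime_int.mp hℓ)).isMaximal hp0
  refine le_trans ?_ (Ideal.card_primesOverFinset_le_finrank (R := ℤ) (S := 𝓞 M) ℚ M hp0)
  rw [← Finset.card_image_of_injective T
    (f := fun 𝔭 : HeightOneSpectrum (𝓞 M) ↦ 𝔭.asIdeal) (fun _ _ h ↦ HeightOneSpectrum.ext h)]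
  refine Finset.card_le_card fun P hP ↦ ?_
  obtain ⟨𝔭, h𝔭, rfl⟩ := Finset.mem_image.mp hP
  rw [IsDedekindDomain.mem_primesOverFinset_iff hp0]
  refine ⟨𝔭.isPrime, ⟨?_⟩⟩
  have hle : Ideal.span {(ℓ : ℤ)} ≤ 𝔭.asIdeal.under ℤ := by
    rw [Ideal.span_singleton_le_iff_mem, Ideal.under_def, Ideal.mem_comap]
    simpa using h 𝔭 h𝔭
  refine (IsMaximal.eq_of_le inferInstance ?_ hle)
  exact (Ideal.IsPrime.under ℤ 𝔭.asIdeal).ne_top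

end Fermat.Agent.Cheb
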