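import Mathlib
import Fermat.Agent.Cheb.Defs

/-!
# CHEB piece P0: only finitely many rational primes ramify in a finite Galois extension of `ℚ`

Stated with inertia subgroups: the set of primes `ℓ` such that some prime `P` of `𝓞 K` above `ℓ`
has nontrivial inertia group in `Gal(K/ℚ)` is finite.
-/

open NumberField

namespace Fermat.Agent.Cheb

variable (K : Type*) [Field K] [NumberField K]

/-- a nontrivial automorphism moves some algebraic integer. -/
theorem ram_exists_ne (g : Gal(K/ℚ)) (hg : g ≠ 1) : ∃ x : 𝓞 K, g • x ≠ x := by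
  by_contra hcon
  have hcon : ∀ x : 𝓞 K, g • x = x := fun x => by
    by_contra h
    exact hcon ⟨x, h⟩
  apply hg
  ext y
  obtain ⟨a, b, hb, rfl⟩ := IsFractionRing.div_surjective (A := 𝓞 K) y
  have ha := congrArg (algebraMap (𝓞 K) K) (hcon a)
  have hb' := congrArg (algebraMap (𝓞 K) K) (hcon b)
  simp only [AlgEquiv.one_apply, map_div₀]
  have h1 : g (algebraMap (𝓞 K) K a) = algebraMap (𝓞 K) K a := ha
  have h2 : g (algebraMap (𝓞 K) K b) = algebraMap (𝓞 K) K b := hb'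
  rw [h1, h2]

open Classical in
/-- the chosen moved integer. -/
noncomputable def ramWitness (g : Gal(K/ℚ)) : 𝓞 K :=
  if hg : g ≠ 1 then (ram_exists_ne K g hg).choose else 1

theorem ramWitness_spec (g : Gal(K/ℚ)) (hg : g ≠ 1) : g • ramWitness K g - ramWitness K g ≠ 0 := by
  rw [ramWitness, dif_pos hg]
  exact sub_ne_zero.mpr (ram_exists_ne K g hg).choose_spec

open Classical in
/-- the nonzero integer `N(g x_g - x_g)`. -/
noncomputable def ramNorm (g : Gal(K/ℚ)) : ℤ :=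
  if g ≠ 1 then Algebra.norm ℤ (g • ramWitness K g - ramWitness K g) else 1

theorem ramNorm_ne_zero (g : Gal(K/ℚ)) : ramNorm K g ≠ 0 := by
  unfold ramNorm
  split_ifs with hg
  · exact Algebra.norm_ne_zero_iff.mpr (ramWitness_spec K g hg)
  · exact one_ne_zero

theorem ram_dvd_absNorm {ℓ : ℕ} (hℓ : ℓ.Prime) (P : Ideal (𝓞 K)) (hP : P.IsPrime)
    (hmem : (ℓ : 𝓞 K) ∈ P) : ℓ ∣ Ideal.absNorm P := by
  have hle : Ideal.span {(ℓ : 𝓞 K)} ≤ P := (Ideal.span_singleton_le_iff_mem P).mpr hmem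
  have hdvd := Ideal.absNorm_dvd_absNorm_of_le hle
  rw [Ideal.absNorm_span_singleton] at hdvd
  have hnorm : (Algebra.norm ℤ ((ℓ : 𝓞 K))).natAbs = ℓ ^ Module.finrank ℤ (𝓞 K) := by
    have : ((ℓ : 𝓞 K)) = algebraMap ℤ (𝓞 K) (ℓ : ℤ) := by simp
    rw [this, Algebra.norm_algebraMap, Int.natAbs_pow, Int.natAbs_natCast]
  rw [hnorm] at hdvd
  obtain ⟨k, -, hk⟩ := (Nat.dvd_prime_pow hℓ).mp hdvd
  have hk0 : k ≠ 0 := by
    rintro rfl
    rw [pow_zero, Ideal.absNorm_eq_one_iff] at hk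
    exact hP.ne_top hk
  rw [hk]
  exact dvd_pow_self ℓ hk0

/-- version without the (unused) Galois hypothesis. -/
theorem ram_finite_ramified :
    {ℓ : ℕ | ℓ.Prime ∧ ∃ P : Ideal (𝓞 K), P.IsPrime ∧ (ℓ : 𝓞 K) ∈ P ∧
      P.inertia Gal(K/ℚ) ≠ ⊥}.Finite := by
  classical
  have : Fintype Gal(K/ℚ) := Fintype.ofFinite _
  set M : ℕ := ∏ g : Gal(K/ℚ), (ramNorm K g).natAbs with hM
  have hM0 : M ≠ 0 := by
    rw [hM]
    exact Finset.prod_ne_zero_iff.mpr fun g _ => Int.natAbs_ne_zero.mpr (ramNorm_ne_zero K g)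
  refine (Set.finite_le_nat M).subset ?_
  rintro ℓ ⟨hℓ, P, hP, hmem, hin⟩
  refine Nat.le_of_dvd (Nat.pos_of_ne_zero hM0) ?_
  obtain ⟨g, hg1⟩ := (Subgroup.ne_bot_iff_exists_ne_one).mp hin
  have hg1' : (g : Gal(K/ℚ)) ≠ 1 := fun h => hg1 (Subtype.ext h)
  have hx : (g : Gal(K/ℚ)) • ramWitness K g - ramWitness K g ∈ P := g.2 (ramWitness K g)
  have h1 : (Ideal.absNorm P : ℤ) ∣ ramNorm K g := by
    have := Ideal.absNorm_dvd_norm_of_mem hx
    simpa [ramNorm, hg1'] using this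
  have h2 : ℓ ∣ (ramNorm K g).natAbs := by
    have h3 : Ideal.absNorm P ∣ (ramNorm K g).natAbs := by
      have := Int.natAbs_dvd_natAbs.mpr h1
      simpa using this
    exact (ram_dvd_absNorm K hℓ P hP hmem).trans h3
  exact h2.trans (Finset.dvd_prod_of_mem _ (Finset.mem_univ (g : Gal(K/ℚ))))

/-- **P0** (exact signature of NOTES/CHEB_blueprint.md). -/
theorem finite_ramified (K : Type*) [Field K] [NumberField K] [IsGalois ℚ K] :
    {ℓ : ℕ | ℓ.Prime ∧ ∃ P : Ideal (𝓞 K), P.IsPrime ∧ (ℓ : 𝓞 K) ∈ P ∧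
      P.inertia Gal(K/ℚ) ≠ ⊥}.Finite :=
  ram_finite_ramified K

end Fermat.Agent.Cheb
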