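import Fermat.Agent.Cheb.Zeta
import Fermat.Agent.Cheb.Count
import Fermat.Agent.Cheb.Comb
import Fermat.Agent.Cheb.Ramified

/-!
# Weak Chebotarev for Galois extensions of `ℚ` (assembly of P0–P3)
-/

open NumberField
open scoped Pointwise

namespace Fermat.Agent.Cheb

section

variable (K : Type*) [Field K] [NumberField K]

theorem weak_exists_prime_over (ℓ : ℕ) (hℓ : ℓ.Prime) :
    ∃ P : Ideal (𝓞 K), P.IsPrime ∧ ((ℓ : ℕ) : 𝓞 K) ∈ P ∧ P ≠ ⊥ := by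
  have hp0 : (Ideal.span {(ℓ : ℤ)}) ≠ ⊥ := by simpa using hℓ.ne_zero
  have hmax : (Ideal.span {(ℓ : ℤ)}).IsMaximal :=
    ((Ideal.span_singleton_prime (by exact_mod_cast hℓ.ne_zero)).mpr
      (Nat.prime_iff_prime_int.mp hℓ)).isMaximal hp0
  obtain ⟨Q, hQ, e⟩ := Ideal.exists_ideal_over_maximal_of_isIntegral (S := 𝓞 K)
    (Ideal.span {(ℓ : ℤ)}) (fun x ↦ by simp +contextual)
  have hmem : ((ℓ : ℕ) : 𝓞 K) ∈ Q := by
    have h1 : (ℓ : ℤ) ∈ Ideal.comap (algebraMap ℤ (𝓞 K)) Q := by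
      rw [e]; exact Ideal.mem_span_singleton_self _
    rw [Ideal.mem_comap] at h1
    simpa using h1
  refine ⟨Q, hQ.isPrime, hmem, ?_⟩
  intro h
  rw [h, Ideal.mem_bot] at hmem
  exact hℓ.ne_zero (by exact_mod_cast hmem)

variable [IsGalois ℚ K]

theorem weak_exists_frob (ℓ : Nat.Primes) :
    ∃ (P : Ideal (𝓞 K)) (τ : Gal(K/ℚ)), P.IsPrime ∧ (((ℓ : ℕ) : ℕ) : 𝓞 K) ∈ P ∧
      IsArithFrobAt ℤ τ P := by
  obtain ⟨P, hP, hmem, hne⟩ := weak_exists_prime_over K ℓ ℓ.2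
  have : Finite (𝓞 K ⧸ P) := Ideal.finiteQuotientOfFreeOfNeBot P hne
  obtain ⟨τ, hτ⟩ := IsArithFrobAt.exists_of_isInvariant ℤ Gal(K/ℚ) P
  exact ⟨P, τ, hP, hmem, hτ⟩

/-- a chosen prime over `ℓ`. -/
noncomputable def weakP (ℓ : Nat.Primes) : Ideal (𝓞 K) := (weak_exists_frob K ℓ).choose

/-- a chosen Frobenius at `weakP ℓ`. -/
noncomputable def weakFrob (ℓ : Nat.Primes) : Gal(K/ℚ) :=
  (weak_exists_frob K ℓ).choose_spec.choose

theorem weakP_isPrime (ℓ : Nat.Primes) : (weakP K ℓ).IsPrime :=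
  (weak_exists_frob K ℓ).choose_spec.choose_spec.1

theorem weakP_mem (ℓ : Nat.Primes) : (((ℓ : ℕ) : ℕ) : 𝓞 K) ∈ weakP K ℓ :=
  (weak_exists_frob K ℓ).choose_spec.choose_spec.2.1

theorem weakFrob_spec (ℓ : Nat.Primes) : IsArithFrobAt ℤ (weakFrob K ℓ) (weakP K ℓ) :=
  (weak_exists_frob K ℓ).choose_spec.choose_spec.2.2

/-- the finite set of ramified primes. -/
noncomputable def weakBad : Finset ℕ := (finite_ramified K).toFinset

theorem weak_unramified {ℓ : ℕ} (hℓ : ℓ.Prime) (hbad : ℓ ∉ weakBad K) (P : Ideal (𝓞 K))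
    (hP : P.IsPrime) (hmem : ((ℓ : ℕ) : 𝓞 K) ∈ P) : P.inertia Gal(K/ℚ) = ⊥ := by
  by_contra h
  apply hbad
  rw [weakBad, Set.Finite.mem_toFinset]
  exact ⟨hℓ, P, hP, hmem, h⟩

/-- the set of good (unramified) primes. -/
def weakGood : Set Nat.Primes := {ℓ | (ℓ : ℕ) ∉ weakBad K}

theorem weak_summable_term (M : Type*) [Field M] [NumberField M] {s : ℝ} (hs : 1 < s) :
    Summable fun ℓ : Nat.Primes ↦ (idealCount M ℓ : ℝ) * ((ℓ : ℕ) : ℝ) ^ (-s) := by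
  have h1 : Summable fun ℓ : Nat.Primes ↦ (Module.finrank ℚ M : ℝ) * ((ℓ : ℕ) : ℝ) ^ (-s) :=
    (Nat.Primes.summable_rpow.mpr (by linarith)).mul_left _
  refine h1.of_nonneg_of_le (fun ℓ ↦ by positivity) fun ℓ ↦ ?_
  exact mul_le_mul_of_nonneg_right (by exact_mod_cast idealCount_prime_le M ℓ ℓ.2)
    (Real.rpow_nonneg (Nat.cast_nonneg _) _)

end

/-- **Weak Chebotarev** for a finite Galois extension `K/ℚ`: for every `σ ∈ Gal(K/ℚ)` and every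
finite set `S` there is a prime `ℓ ∉ S`, a prime `P` of `𝓞 K` above `ℓ` with trivial inertia and
Frobenius `τ` such that `τ` and `σ` generate the same cyclic subgroup. -/
theorem weak_chebotarev (K : Type*) [Field K] [NumberField K] [IsGalois ℚ K]
    (σ : Gal(K/ℚ)) (S : Finset ℕ) :
    ∃ (ℓ : ℕ) (P : Ideal (𝓞 K)) (τ : Gal(K/ℚ)), ℓ.Prime ∧ ℓ ∉ S ∧ P.IsPrime ∧ (ℓ : 𝓞 K) ∈ P ∧
      P.inertia Gal(K/ℚ) = ⊥ ∧ IsArithFrobAt ℤ τ P ∧
      Subgroup.zpowers τ = Subgroup.zpowers σ := by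
  classical
  have key : ∀ H : Subgroup Gal(K/ℚ), ∃ C : ℝ, ∀ s : ℝ, 1 < s → s ≤ 2 →
      |(∑' ℓ : Nat.Primes, ((weakGood K).indicator
            (fun ℓ => (Nat.card {g : Gal(K/ℚ) // g * weakFrob K ℓ * g⁻¹ ∈ H} : ℝ)) ℓ)
              * ((ℓ : ℕ) : ℝ) ^ (-s))
          - Nat.card H * Real.log (1 / (s - 1))| ≤ C := by
    intro H
    set M := (FixedPoints.intermediateField H : IntermediateField ℚ K) with hM
    obtain ⟨C, hC⟩ := primeSum_asymp M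
    -- the bad primes as a finset of `Nat.Primes`
    have hT : {ℓ : Nat.Primes | (ℓ : ℕ) ∈ weakBad K}.Finite :=
      Set.Finite.preimage (f := fun ℓ : Nat.Primes => (ℓ : ℕ))
        (Subtype.val_injective.injOn) (weakBad K).finite_toSet
    set T : Finset Nat.Primes := hT.toFinset with hTdef
    have hTmem : ∀ ℓ : Nat.Primes, ℓ ∈ T ↔ ℓ ∉ weakGood K := by
      intro ℓ
      rw [hTdef, Set.Finite.mem_toFinset]
      simp [weakGood]
    refine ⟨Nat.card H * (C + T.card * Module.finrank ℚ M), fun s hs hs2 ↦ ?_⟩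
    set a : Nat.Primes → ℝ := fun ℓ ↦ (idealCount M ℓ : ℝ) * ((ℓ : ℕ) : ℝ) ^ (-s) with ha
    set b : Nat.Primes → ℝ := fun ℓ ↦ if ℓ ∈ T then a ℓ else 0 with hb
    have ha0 : ∀ ℓ, 0 ≤ a ℓ := fun ℓ ↦ by positivity
    have hale : ∀ ℓ, a ℓ ≤ Module.finrank ℚ M := by
      intro ℓ
      have h1 : (idealCount M ℓ : ℝ) ≤ Module.finrank ℚ M := by
        exact_mod_cast idealCount_prime_le M ℓ ℓ.2
      have h2 : ((ℓ : ℕ) : ℝ) ^ (-s) ≤ 1 := chc_rpow_le_one ℓ (by linarith)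
      calc a ℓ ≤ (Module.finrank ℚ M : ℝ) * 1 :=
            mul_le_mul h1 h2 (Real.rpow_nonneg (Nat.cast_nonneg _) _) (Nat.cast_nonneg _)
        _ = _ := mul_one _
    have hsa : Summable a := weak_summable_term M hs
    have hsb : Summable b := summable_of_ne_finset_zero (s := T) fun ℓ hℓ ↦ by simp [hb, hℓ]
    have hbsum : ∑' ℓ, b ℓ = ∑ ℓ ∈ T, a ℓ := by
      rw [tsum_eq_sum (s := T) fun ℓ hℓ ↦ by simp [hb, hℓ]]
      exact Finset.sum_congr rfl fun ℓ hℓ ↦ by simp [hb, hℓ]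
    have hb0 : 0 ≤ ∑' ℓ, b ℓ := by
      rw [hbsum]; exact Finset.sum_nonneg fun ℓ _ ↦ ha0 ℓ
    have hble : ∑' ℓ, b ℓ ≤ T.card * Module.finrank ℚ M := by
      rw [hbsum]
      calc ∑ ℓ ∈ T, a ℓ ≤ ∑ ℓ ∈ T, (Module.finrank ℚ M : ℝ) :=
            Finset.sum_le_sum fun ℓ _ ↦ hale ℓ
        _ = T.card * Module.finrank ℚ M := by rw [Finset.sum_const, nsmul_eq_mul]
    have hterm : ∀ ℓ : Nat.Primes, ((weakGood K).indicator
        (fun ℓ => (Nat.card {g : Gal(K/ℚ) // g * weakFrob K ℓ * g⁻¹ ∈ H} : ℝ)) ℓ)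
          * ((ℓ : ℕ) : ℝ) ^ (-s) = Nat.card H * (a ℓ - b ℓ) := by
      intro ℓ
      by_cases hg : ℓ ∈ weakGood K
      · have hnT : ℓ ∉ T := fun h ↦ (hTmem ℓ).mp h hg
        have hP := weakP_isPrime K ℓ
        have h2 := card_mul_idealCount K H ℓ ℓ.2 (weakP K ℓ) (weakP_mem K ℓ)
          (weak_unramified K ℓ.2 hg (weakP K ℓ) hP (weakP_mem K ℓ)) (weakFrob K ℓ)
          (weakFrob_spec K ℓ)
        rw [Set.indicator_of_mem hg, ← h2]
        simp only [hb, ha, hnT, if_false, sub_zero, Nat.cast_mul]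
        ring
      · have hT' : ℓ ∈ T := (hTmem ℓ).mpr hg
        rw [Set.indicator_of_notMem hg]
        simp [hb, hT']
    simp_rw [hterm]
    rw [tsum_mul_left, hsa.tsum_sub hsb]
    have hps : ∑' ℓ, a ℓ = primeSum M s := rfl
    rw [hps]
    have h1 := abs_le.mp (hC s hs hs2)
    have hH : (0 : ℝ) ≤ Nat.card H := Nat.cast_nonneg _
    rw [show (Nat.card H : ℝ) * (primeSum M s - ∑' ℓ, b ℓ) - Nat.card H * Real.log (1 / (s - 1))
      = Nat.card H * (primeSum M s - Real.log (1 / (s - 1)) - ∑' ℓ, b ℓ) by ring,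
      abs_mul, abs_of_nonneg hH]
    refine mul_le_mul_of_nonneg_left ?_ hH
    rw [abs_le]
    have hTn : (0 : ℝ) ≤ T.card * Module.finrank ℚ M := by positivity
    constructor <;> linarith [h1.1, h1.2]
  obtain ⟨ℓ, hgood, hS, g, hg⟩ := cheb_comb (weakGood K) (weakFrob K) key σ S
  have hP := weakP_isPrime K ℓ
  refine ⟨ℓ, g • weakP K ℓ, g * weakFrob K ℓ * g⁻¹, ℓ.2, hS, inferInstance,
    count_natCast_mem_smul _ (weakP_mem K ℓ) g, ?_, (weakFrob_spec K ℓ).conj g, hg⟩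
  exact weak_unramified K ℓ.2 hgood _ inferInstance (count_natCast_mem_smul _ (weakP_mem K ℓ) g)

end Fermat.Agent.Cheb
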