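import Mathlib
import Fermat.Agent.Cheb.Defs
import Fermat.Agent.Cheb.Ramified
import Fermat.Agent.Cheb.Comb

/-!
# CHEB piece P4: assembly of the weak Chebotarev theorem

`weak_chebotarev_of`: from the asymptotics of the prime sums of the fixed fields (P1), the bound
`idealCount ≤ degree` (P1) and the counting formula (P2), taken as hypotheses, together with the
finiteness of the ramified primes (P0) and the combinatorial/analytic core (P3), every `σ` in the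
Galois group of a finite Galois extension `K/ℚ` generates the same cyclic group as a Frobenius at
an unramified prime outside any given finite set.
-/

open NumberField
open scoped Pointwise

namespace Fermat.Agent.Cheb

section

variable (K : Type*) [Field K] [NumberField K]

/-- a prime of `𝓞 K` over each rational prime. -/
theorem weakof_exists_prime (ℓ : ℕ) (hℓ : ℓ.Prime) :
    ∃ P : Ideal (𝓞 K), P.IsPrime ∧ (ℓ : 𝓞 K) ∈ P := by
  have hmax : (Ideal.span {(ℓ : ℤ)}).IsMaximal :=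
    PrincipalIdealRing.isMaximal_of_irreducible (Nat.prime_iff_prime_int.mp hℓ).irreducible
  obtain ⟨Q, hQmax, hQ⟩ := Ideal.exists_ideal_over_maximal_of_isIntegral (S := 𝓞 K)
    (Ideal.span {(ℓ : ℤ)}) (by
      rw [(RingHom.injective_iff_ker_eq_bot _).mp (FaithfulSMul.algebraMap_injective ℤ (𝓞 K))]
      exact bot_le)
  refine ⟨Q, hQmax.isPrime, ?_⟩
  have : (ℓ : ℤ) ∈ Q.comap (algebraMap ℤ (𝓞 K)) := by
    rw [hQ]; exact Ideal.mem_span_singleton_self _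
  simpa using this

/-- a prime of `𝓞 K` over a rational prime together with a Frobenius element. -/
theorem weakof_exists_frob [IsGalois ℚ K] (ℓ : ℕ) (hℓ : ℓ.Prime) :
    ∃ (P : Ideal (𝓞 K)) (τ : Gal(K/ℚ)), P.IsPrime ∧ (ℓ : 𝓞 K) ∈ P ∧ IsArithFrobAt ℤ τ P := by
  obtain ⟨P, hP, hmem⟩ := weakof_exists_prime K ℓ hℓ
  have hPne : P ≠ ⊥ := by
    intro h
    rw [h, Ideal.mem_bot] at hmem
    exact hℓ.ne_zero (by exact_mod_cast hmem)
  have hfinP : Finite (𝓞 K ⧸ P) := Ideal.finiteQuotientOfFreeOfNeBot P hPne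
  obtain ⟨τ, hτ⟩ := IsArithFrobAt.exists_of_isInvariant ℤ Gal(K/ℚ) P
  exact ⟨P, τ, hP, hmem, hτ⟩

end

/-- **P4** (assembly): the weak Chebotarev theorem from P1 (`h1`, `h1'`) and P2 (`h2`). -/
theorem weak_chebotarev_of (K : Type*) [Field K] [NumberField K] [IsGalois ℚ K]
    (h1 : ∀ H : Subgroup Gal(K/ℚ), ∃ C : ℝ, ∀ s : ℝ, 1 < s → s ≤ 2 →
        |primeSum (FixedPoints.intermediateField H : IntermediateField ℚ K) s - Real.log (1 / (s - 1))| ≤ C)
    (h1' : ∀ (H : Subgroup Gal(K/ℚ)) (ℓ : ℕ), ℓ.Prime →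
        idealCount (FixedPoints.intermediateField H : IntermediateField ℚ K) ℓ
          ≤ Module.finrank ℚ (FixedPoints.intermediateField H : IntermediateField ℚ K))
    (h2 : ∀ (H : Subgroup Gal(K/ℚ)) (ℓ : ℕ), ℓ.Prime → ∀ (P : Ideal (𝓞 K)) [P.IsPrime],
        (ℓ : 𝓞 K) ∈ P → P.inertia Gal(K/ℚ) = ⊥ → ∀ τ : Gal(K/ℚ), IsArithFrobAt ℤ τ P →
        Nat.card H * idealCount (FixedPoints.intermediateField H : IntermediateField ℚ K) ℓ
          = Nat.card {g : Gal(K/ℚ) // g * τ * g⁻¹ ∈ H})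
    (σ : Gal(K/ℚ)) (S : Finset ℕ) :
    ∃ (ℓ : ℕ) (P : Ideal (𝓞 K)) (τ : Gal(K/ℚ)), ℓ.Prime ∧ ℓ ∉ S ∧ P.IsPrime ∧ (ℓ : 𝓞 K) ∈ P ∧
      P.inertia Gal(K/ℚ) = ⊥ ∧ IsArithFrobAt ℤ τ P ∧ Subgroup.zpowers τ = Subgroup.zpowers σ := by
  classical
  set bad : Finset ℕ := (finite_ramified K).toFinset with hbad
  choose P τ hPprime hPmem hτ using fun ℓ : Nat.Primes => weakof_exists_frob K ℓ.1 ℓ.2
  let good : Set Nat.Primes := {ℓ | (ℓ : ℕ) ∉ bad}
  have hgood_unr : ∀ ℓ : Nat.Primes, ℓ ∈ good → ∀ Q : Ideal (𝓞 K), Q.IsPrime →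
      ((ℓ : ℕ) : 𝓞 K) ∈ Q → Q.inertia Gal(K/ℚ) = ⊥ := by
    intro ℓ hℓ Q hQ hmem
    by_contra hne
    apply hℓ
    rw [hbad, Set.Finite.mem_toFinset]
    exact ⟨ℓ.2, Q, hQ, hmem, hne⟩
  have key : ∀ H : Subgroup Gal(K/ℚ), ∃ C : ℝ, ∀ s : ℝ, 1 < s → s ≤ 2 →
      |(∑' ℓ : Nat.Primes, (good.indicator
            (fun ℓ => (Nat.card {g : Gal(K/ℚ) // g * τ ℓ * g⁻¹ ∈ H} : ℝ)) ℓ) * ((ℓ : ℕ) : ℝ) ^ (-s))
          - Nat.card H * Real.log (1 / (s - 1))| ≤ C := by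
    intro H
    obtain ⟨C, hC⟩ := h1 H
    set M := (FixedPoints.intermediateField H : IntermediateField ℚ K) with hM
    set n : ℕ := Module.finrank ℚ M with hn
    refine ⟨Nat.card H * C + Nat.card H * n * bad.card, ?_⟩
    intro s hs1 hs2
    have hsum0 : Summable (fun ℓ : Nat.Primes => ((ℓ : ℕ) : ℝ) ^ (-s)) :=
      Nat.Primes.summable_rpow.mpr (by linarith)
    have hpos : ∀ ℓ : Nat.Primes, 0 ≤ ((ℓ : ℕ) : ℝ) ^ (-s) :=
      fun ℓ => Real.rpow_nonneg (Nat.cast_nonneg _) _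
    have hle1 : ∀ ℓ : Nat.Primes, ((ℓ : ℕ) : ℝ) ^ (-s) ≤ 1 := fun ℓ =>
      Real.rpow_le_one_of_one_le_of_nonpos (by exact_mod_cast ℓ.2.one_le) (by linarith)
    have hcnt : ∀ ℓ : Nat.Primes, (idealCount M ℓ : ℝ) ≤ n := fun ℓ => by
      exact_mod_cast h1' H ℓ ℓ.2
    have hsumg : Summable (fun ℓ : Nat.Primes => (idealCount M ℓ : ℝ) * ((ℓ : ℕ) : ℝ) ^ (-s)) := by
      refine Summable.of_nonneg_of_le (fun ℓ => mul_nonneg (Nat.cast_nonneg _) (hpos ℓ))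
        (fun ℓ => ?_) (hsum0.mul_left (n : ℝ))
      exact mul_le_mul_of_nonneg_right (hcnt ℓ) (hpos ℓ)
    set e : Nat.Primes → ℝ := fun ℓ =>
      if (ℓ : ℕ) ∈ bad then Nat.card H * ((idealCount M ℓ : ℝ) * ((ℓ : ℕ) : ℝ) ^ (-s)) else 0
      with he
    have hfe : ∀ ℓ : Nat.Primes, good.indicator
        (fun ℓ => (Nat.card {g : Gal(K/ℚ) // g * τ ℓ * g⁻¹ ∈ H} : ℝ)) ℓ * ((ℓ : ℕ) : ℝ) ^ (-s)
        = Nat.card H * ((idealCount M ℓ : ℝ) * ((ℓ : ℕ) : ℝ) ^ (-s)) - e ℓ := by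
      intro ℓ
      by_cases hℓ : (ℓ : ℕ) ∈ bad
      · have hng : ℓ ∉ good := fun h => h hℓ
        rw [Set.indicator_of_notMem hng]
        simp only [he, hℓ, if_true]
        ring
      · have hg : ℓ ∈ good := hℓ
        rw [Set.indicator_of_mem hg]
        simp only [he, hℓ, if_false, sub_zero]
        have hPp := hPprime ℓ
        have := h2 H ℓ ℓ.2 (P ℓ) (hPmem ℓ) (hgood_unr ℓ hg (P ℓ) (hPprime ℓ) (hPmem ℓ))
          (τ ℓ) (hτ ℓ)
        rw [← this]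
        push_cast
        ring
    have hesupp : ∀ ℓ : Nat.Primes, ℓ ∉ (bad.subtype Nat.Prime) → e ℓ = 0 := by
      intro ℓ hℓ
      have hℓ' : (ℓ : ℕ) ∉ bad := fun h => hℓ (Finset.mem_subtype.mpr h)
      simp only [he]
      rw [if_neg hℓ']
    have hesum : Summable e := summable_of_ne_finset_zero hesupp
    have hetsum : ∑' ℓ, e ℓ = ∑ ℓ ∈ bad.subtype Nat.Prime, e ℓ := tsum_eq_sum hesupp
    have he0 : ∀ ℓ : Nat.Primes, 0 ≤ e ℓ := by
      intro ℓ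
      simp only [he]
      split_ifs
      · exact mul_nonneg (Nat.cast_nonneg _) (mul_nonneg (Nat.cast_nonneg _) (hpos ℓ))
      · exact le_rfl
    have he1 : ∀ ℓ : Nat.Primes, e ℓ ≤ Nat.card H * n := by
      intro ℓ
      simp only [he]
      split_ifs
      · refine mul_le_mul_of_nonneg_left ?_ (Nat.cast_nonneg _)
        calc (idealCount M ℓ : ℝ) * ((ℓ : ℕ) : ℝ) ^ (-s) ≤ n * 1 :=
              mul_le_mul (hcnt ℓ) (hle1 ℓ) (hpos ℓ) (Nat.cast_nonneg _)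
          _ = n := mul_one _
      · exact mul_nonneg (Nat.cast_nonneg _) (Nat.cast_nonneg _)
    have hE0 : 0 ≤ ∑' ℓ, e ℓ := tsum_nonneg he0
    have hE1 : ∑' ℓ, e ℓ ≤ Nat.card H * n * bad.card := by
      rw [hetsum]
      calc ∑ ℓ ∈ bad.subtype Nat.Prime, e ℓ
          ≤ ∑ _ℓ ∈ bad.subtype Nat.Prime, ((Nat.card H : ℝ) * n) :=
            Finset.sum_le_sum fun ℓ _ => he1 ℓ
        _ = ((bad.subtype Nat.Prime).card : ℝ) * ((Nat.card H : ℝ) * n) := by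
            rw [Finset.sum_const, nsmul_eq_mul]
        _ ≤ (bad.card : ℝ) * ((Nat.card H : ℝ) * n) := by
            refine mul_le_mul_of_nonneg_right ?_ (mul_nonneg (Nat.cast_nonneg _) (Nat.cast_nonneg _))
            rw [Finset.card_subtype]
            exact_mod_cast Finset.card_filter_le _ _
        _ = Nat.card H * n * bad.card := by ring
    have htsum : (∑' ℓ : Nat.Primes, (good.indicator
            (fun ℓ => (Nat.card {g : Gal(K/ℚ) // g * τ ℓ * g⁻¹ ∈ H} : ℝ)) ℓ) * ((ℓ : ℕ) : ℝ) ^ (-s))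
        = Nat.card H * primeSum M s - ∑' ℓ, e ℓ := by
      rw [tsum_congr hfe, (hsumg.mul_left _).tsum_sub hesum, tsum_mul_left]
      rfl
    rw [htsum]
    have hC' := hC s hs1 hs2
    have hH0 : (0 : ℝ) ≤ Nat.card H := Nat.cast_nonneg _
    have hrew : (Nat.card H : ℝ) * primeSum M s - ∑' ℓ, e ℓ - Nat.card H * Real.log (1 / (s - 1))
        = Nat.card H * (primeSum M s - Real.log (1 / (s - 1))) - ∑' ℓ, e ℓ := by ring
    rw [hrew]
    calc |(Nat.card H : ℝ) * (primeSum M s - Real.log (1 / (s - 1))) - ∑' ℓ, e ℓ|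
        ≤ |(Nat.card H : ℝ) * (primeSum M s - Real.log (1 / (s - 1)))| + |∑' ℓ, e ℓ| :=
          abs_sub _ _
      _ ≤ Nat.card H * C + Nat.card H * n * bad.card := by
          rw [abs_mul, abs_of_nonneg hH0, abs_of_nonneg hE0]
          exact add_le_add (mul_le_mul_of_nonneg_left hC' hH0) hE1
  obtain ⟨ℓ, hℓg, hℓS, g, hg⟩ := cheb_comb good τ key σ S
  refine ⟨ℓ, g • P ℓ, g * τ ℓ * g⁻¹, ℓ.2, hℓS, ?_, ?_, ?_, (hτ ℓ).conj g, hg⟩
  · rw [Ideal.pointwise_smul_eq_comap]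
    have hPp := hPprime ℓ
    exact Ideal.comap_isPrime _ _
  · rw [Ideal.pointwise_smul_eq_comap, Ideal.mem_comap, map_natCast]
    exact hPmem ℓ
  · refine hgood_unr ℓ hℓg _ ?_ ?_
    · rw [Ideal.pointwise_smul_eq_comap]
      have hPp := hPprime ℓ
      exact Ideal.comap_isPrime _ _
    · rw [Ideal.pointwise_smul_eq_comap, Ideal.mem_comap, map_natCast]
      exact hPmem ℓ

end Fermat.Agent.Cheb
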