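import Fermat.Agent.Cheb.Weak
import Fermat.Agent.Cheb.Bridge

/-!
# Weak Chebotarev in the Prelude's language (T2)
-/

set_option autoImplicit false

namespace Fermat.Agent.GalRep

/-- T1 in the form consumed by the bridge. -/
theorem weakChebNF : WeakChebNF :=
  fun K _ _ _ σ S => Fermat.Agent.Cheb.weak_chebotarev K σ S

/-- **Weak Chebotarev for `G_ℚ`** (T2): for every finite level `L`, finite set `S` of primes and
`g : G_ℚ` there is a Frobenius element `τ` at a prime `ℓ ∉ S` with `τ = g ^ k` and `g = τ ^ k'`
on `L`. -/
theorem weakCheb : WeakCheb :=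
  weakCheb_of_weakChebNF weakChebNF

end Fermat.Agent.GalRep
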