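import Fermat.Agent.Cheb.PrimeCut

open NumberField Filter Topology Ideal IsDedekindDomain

namespace Fermat.Agent.Cheb

variable (M : Type*) [Field M] [NumberField M]

theorem xP_sub_primeCut_nonneg (s : ℝ) (𝔭 : HeightOneSpectrum (𝓞 M)) :
    0 ≤ xP M s 𝔭 - primeCut s (absNorm 𝔭.asIdeal) :=
  sub_nonneg.mpr (primeCut_le s _)

theorem xP_sub_primeCut_le {s : ℝ} (hs : 1 ≤ s) (𝔭 : HeightOneSpectrum (𝓞 M)) :
    xP M s 𝔭 - primeCut s (absNorm 𝔭.asIdeal) ≤ ((primeOf 𝔭 : ℕ) : ℝ) ^ (-2 : ℝ) := by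
  by_cases h : (absNorm 𝔭.asIdeal).Prime
  · have : xP M s 𝔭 - primeCut s (absNorm 𝔭.asIdeal) = 0 := by
      simp [primeCut, h, xP]
    rw [this]
    exact Real.rpow_nonneg (Nat.cast_nonneg _) _
  · have : primeCut s (absNorm 𝔭.asIdeal) = 0 := by simp [primeCut, h]
    rw [this, sub_zero]
    exact xP_le_primeOf_of_not_prime hs 𝔭 h

theorem summable_primeCut_absNorm {s : ℝ} (hs : 1 < s) :
    Summable fun 𝔭 : HeightOneSpectrum (𝓞 M) ↦ primeCut s (absNorm 𝔭.asIdeal) :=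
  (summable_xP (M := M) hs).of_nonneg_of_le (fun _ ↦ primeCut_nonneg s _)
    (fun _ ↦ primeCut_le s _)

/-- `primeSum` differs from the sum over all primes by a bounded amount. -/
theorem primeSum_eq_tsum_xP_sub {s : ℝ} (hs : 1 < s) :
    primeSum M s = ∑' 𝔭, xP M s 𝔭
      - ∑' 𝔭 : HeightOneSpectrum (𝓞 M), (xP M s 𝔭 - primeCut s (absNorm 𝔭.asIdeal)) := by
  rw [← tsum_xP_prime M hs,
    (summable_xP (M := M) hs).tsum_sub (summable_primeCut_absNorm M hs)]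
  ring

/-- **P1**: `∑_ℓ a_M(ℓ) ℓ^{-s} = log (1/(s-1)) + O(1)` on `(1, 2]`. -/
theorem primeSum_asymp (M : Type*) [Field M] [NumberField M] :
    ∃ C : ℝ, ∀ s : ℝ, 1 < s → s ≤ 2 → |primeSum M s - Real.log (1 / (s - 1))| ≤ C := by
  obtain ⟨C₀, hC₀⟩ := log_zetaR_bound M
  refine ⟨C₀ + 3 * errConst M, fun s hs hs2 ↦ ?_⟩
  have h1 := abs_le.mp (hC₀ s hs hs2)
  have h2 := log_zetaR_le (M := M) hs
  have h3 := tsum_xP_le (M := M) hs
  have h4 : ∑' 𝔭 : HeightOneSpectrum (𝓞 M), (xP M s 𝔭) ^ 2 ≤ errConst M :=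
    tsum_le_errConst _ (fun _ ↦ sq_nonneg _) (fun 𝔭 ↦ xP_sq_le_primeOf hs.le 𝔭)
  have h5 : ∑' 𝔭 : HeightOneSpectrum (𝓞 M), (xP M s 𝔭 - primeCut s (absNorm 𝔭.asIdeal))
      ≤ errConst M :=
    tsum_le_errConst _ (fun 𝔭 ↦ xP_sub_primeCut_nonneg M s 𝔭)
      (fun 𝔭 ↦ xP_sub_primeCut_le M hs.le 𝔭)
  have h6 : 0 ≤ ∑' 𝔭 : HeightOneSpectrum (𝓞 M),
      (xP M s 𝔭 - primeCut s (absNorm 𝔭.asIdeal)) :=
    tsum_nonneg fun 𝔭 ↦ xP_sub_primeCut_nonneg M s 𝔭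
  have h7 := primeSum_eq_tsum_xP_sub M hs
  have h8 := errConst_nonneg (M := M)
  rw [abs_le]
  constructor <;> linarith

/-- the number of ideals of prime norm `ℓ` is at most the degree. -/
theorem idealCount_prime_le (M : Type*) [Field M] [NumberField M] (ℓ : ℕ) (hℓ : ℓ.Prime) :
    idealCount M ℓ ≤ Module.finrank ℚ M := by
  classical
  let _ : Fintype {I : Ideal (𝓞 M) // absNorm I = ℓ} := Fintype.ofFinite _
  have hex : ∀ I : {I : Ideal (𝓞 M) // absNorm I = ℓ},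
      ∃ 𝔭 : HeightOneSpectrum (𝓞 M), 𝔭.asIdeal = I.1 := fun I ↦
    isPrime_of_prime_absNorm M (by rw [I.2]; exact hℓ)
  choose f hf using hex
  have hinj : Function.Injective f := by
    intro I J h
    apply Subtype.ext
    rw [← hf I, ← hf J, h]
  have hcard : idealCount M ℓ = (Finset.univ.image f).card := by
    rw [Finset.card_image_of_injective _ hinj, Finset.card_univ, idealCount,
      Nat.card_eq_fintype_card]
  rw [hcard]
  refine card_le_finrank_of_mem hℓ _ fun 𝔭 h𝔭 ↦ ?_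
  obtain ⟨I, _, rfl⟩ := Finset.mem_image.mp h𝔭
  rw [hf I]
  have := Ideal.absNorm_mem I.1
  rwa [I.2] at this

end Fermat.Agent.Cheb
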