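import Fermat.Agent.Cheb.ZetaReal

open NumberField Filter Topology Ideal

namespace Fermat.Agent.Cheb

variable (M : Type*) [Field M] [NumberField M]

theorem one_le_zetaR {s : ℝ} (hs : 1 < s) : 1 ≤ zetaR M s := by
  have h := (summable_norm_rpow M hs).le_tsum (⊤ : Ideal (𝓞 M))
    (fun _ _ ↦ Real.rpow_nonneg (Nat.cast_nonneg _) _)
  simpa [zetaR] using h

theorem zetaR_anti {s t : ℝ} (hs : 1 < s) (hst : s ≤ t) : zetaR M t ≤ zetaR M s := by
  refine (summable_norm_rpow M (hs.trans_le hst)).tsum_le_tsum (fun I ↦ ?_) (summable_norm_rpow M hs)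
  rcases Nat.eq_zero_or_pos (absNorm I) with h | h
  · rw [h]
    simp [Real.zero_rpow (by linarith : -s ≠ 0), Real.zero_rpow (by linarith : -t ≠ 0)]
  · exact Real.rpow_le_rpow_of_exponent_le (by exact_mod_cast h) (by linarith)

theorem zetaR_bounds : ∃ c₁ c₂ : ℝ, 0 < c₁ ∧ ∀ s : ℝ, 1 < s → s ≤ 2 →
    c₁ ≤ (s - 1) * zetaR M s ∧ (s - 1) * zetaR M s ≤ c₂ := by
  have hρ := dedekindZeta_residue_pos M
  set ρ := dedekindZeta_residue M
  have h := tendsto_sub_one_mul_zetaR M
  rw [Metric.tendsto_nhdsWithin_nhds] at h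
  obtain ⟨δ, hδ, hδ'⟩ := h (ρ / 2) (by positivity)
  refine ⟨min (ρ / 2) δ, max (3 * ρ / 2) (zetaR M (1 + δ)), lt_min (by positivity) hδ,
    fun s hs hs2 ↦ ?_⟩
  by_cases hsd : s - 1 < δ
  · have := hδ' (show s ∈ Set.Ioi (1:ℝ) from hs) (by
      rw [Real.dist_eq, abs_of_pos (by linarith)]; exact hsd)
    rw [Real.dist_eq, abs_lt] at this
    constructor
    · exact (min_le_left _ _).trans (by linarith [this.1])
    · exact le_trans (by linarith [this.2]) (le_max_left _ _)
  · rw [not_lt] at hsd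
    have h1 := one_le_zetaR M hs
    have h2 := zetaR_anti M (s := 1 + δ) (t := s) (by linarith) (by linarith)
    constructor
    · refine (min_le_right _ _).trans ?_
      nlinarith
    · refine le_trans ?_ (le_max_right _ _)
      have : 0 ≤ zetaR M s := by linarith
      nlinarith

theorem log_zetaR_bound : ∃ C : ℝ, ∀ s : ℝ, 1 < s → s ≤ 2 →
    |Real.log (zetaR M s) - Real.log (1 / (s - 1))| ≤ C := by
  obtain ⟨c₁, c₂, hc₁, h⟩ := zetaR_bounds M
  refine ⟨max (|Real.log c₁|) (|Real.log c₂|), fun s hs hs2 ↦ ?_⟩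
  obtain ⟨h1, h2⟩ := h s hs hs2
  have hs1 : 0 < s - 1 := by linarith
  have hZ : 0 < zetaR M s := lt_of_lt_of_le one_pos (one_le_zetaR M hs)
  have hc₂ : 0 < c₂ := lt_of_lt_of_le hc₁ (h1.trans h2)
  have e : Real.log (zetaR M s) - Real.log (1 / (s - 1)) = Real.log ((s - 1) * zetaR M s) := by
    rw [Real.log_mul hs1.ne' hZ.ne', one_div, Real.log_inv]; ring
  rw [e, abs_le]
  have l1 : Real.log c₁ ≤ Real.log ((s - 1) * zetaR M s) := Real.log_le_log hc₁ h1
  have l2 : Real.log ((s - 1) * zetaR M s) ≤ Real.log c₂ :=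
    Real.log_le_log (mul_pos hs1 hZ) h2
  constructor
  · have := neg_abs_le (Real.log c₁)
    have := le_max_left (|Real.log c₁|) (|Real.log c₂|)
    linarith
  · have := le_abs_self (Real.log c₂)
    have := le_max_right (|Real.log c₁|) (|Real.log c₂|)
    linarith

end Fermat.Agent.Cheb
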