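import Fermat.Agent.Cheb.Defs

open NumberField Filter Topology Ideal

namespace Fermat.Agent.Cheb

variable (M : Type*) [Field M] [NumberField M]

theorem zeta_partial_tendsto :
    Tendsto (fun n : ℕ ↦ (∑ k ∈ Finset.Icc 1 n, (idealCount M k : ℝ)) / (n : ℝ)) atTop
      (𝓝 (dedekindZeta_residue M)) := by
  refine ((Ideal.tendsto_norm_le_div_atTop₀ M).comp tendsto_natCast_atTop_atTop).congr fun n ↦ ?_
  simp only [Function.comp_apply, Nat.cast_le, ← Nat.cast_sum, idealCount]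
  congr
  rw [← add_left_inj 1, ← card_norm_le_eq_card_norm_le_add_one,
    show Finset.Icc 1 n = Finset.Ioc 0 n from Finset.Icc_succ_left_eq_Ioc _ _,
    show 1 = Nat.card {I : Ideal (𝓞 M) // absNorm I = 0} by simp [Ideal.absNorm_eq_zero_iff],
    Finset.sum_Ioc_add_eq_sum_Icc (n.zero_le),
    ← Finset.card_preimage_eq_sum_card_image_eq (fun k _ ↦ finite_setOfPred_absNorm_eq k)]
  simp [Set.coe_eq_subtype]

theorem zeta_lseriesSummable {s : ℝ} (hs : 1 < s) :
    LSeriesSummable (fun n ↦ ((idealCount M n : ℝ) : ℂ)) s := by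
  refine LSeriesSummable_of_sum_norm_bigO_and_nonneg ?_ (fun _ ↦ Nat.cast_nonneg _) zero_le_one
    (by simpa using hs)
  exact Asymptotics.isBigO_atTop_natCast_rpow_of_tendsto_div_rpow
    (by simpa using zeta_partial_tendsto M)

/-- the real Dirichlet series of `ζ_M` is summable for `s > 1`. -/
theorem summable_idealCount_rpow {s : ℝ} (hs : 1 < s) :
    Summable (fun n : ℕ ↦ (idealCount M n : ℝ) * (n : ℝ) ^ (-s)) := by
  have h := (zeta_lseriesSummable M hs).norm
  refine h.of_nonneg_of_le (fun n ↦ by positivity) fun n ↦ ?_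
  rcases Nat.eq_zero_or_pos n with rfl | hn
  · simp [Real.zero_rpow (by linarith : -s ≠ 0)]
  · rw [LSeries.norm_term_eq]
    simp only [hn.ne', if_false, Complex.ofReal_re]
    rw [Complex.norm_real, Real.norm_of_nonneg (Nat.cast_nonneg _), Real.rpow_neg (Nat.cast_nonneg _),
      div_eq_mul_inv]

instance fintype_fiber (n : ℕ) : Finite {I : Ideal (𝓞 M) // absNorm I = n} :=
  (finite_setOfPred_absNorm_eq n).to_subtype

theorem absNorm_sigmaFiberEquiv (n : ℕ) (y : {I : Ideal (𝓞 M) // absNorm I = n}) :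
    absNorm ((Equiv.sigmaFiberEquiv (fun I : Ideal (𝓞 M) ↦ absNorm I)) ⟨n, y⟩) = n := by
  simp [Equiv.sigmaFiberEquiv, y.2]

theorem tsum_fiber_rpow (n : ℕ) (s : ℝ) :
    ∑' y : {I : Ideal (𝓞 M) // absNorm I = n},
      ((fun I : Ideal (𝓞 M) ↦ ((absNorm I : ℕ) : ℝ) ^ (-s)) ∘
        (Equiv.sigmaFiberEquiv (fun I : Ideal (𝓞 M) ↦ absNorm I))) ⟨n, y⟩
      = (idealCount M n : ℝ) * (n : ℝ) ^ (-s) := by
  simp only [Function.comp_apply, absNorm_sigmaFiberEquiv]
  let _ : Fintype {I : Ideal (𝓞 M) // absNorm I = n} := Fintype.ofFinite _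
  rw [tsum_fintype, Finset.sum_const, idealCount, Nat.card_eq_fintype_card]
  simp [Finset.card_univ]

theorem summable_norm_rpow {s : ℝ} (hs : 1 < s) :
    Summable (fun I : Ideal (𝓞 M) ↦ ((absNorm I : ℕ) : ℝ) ^ (-s)) := by
  rw [← (Equiv.sigmaFiberEquiv (fun I : Ideal (𝓞 M) ↦ absNorm I)).summable_iff]
  refine (summable_sigma_of_nonneg (fun _ ↦ Real.rpow_nonneg (Nat.cast_nonneg _) _)).mpr
    ⟨fun n ↦ Summable.of_finite, ?_⟩
  refine (summable_idealCount_rpow M hs).congr fun n ↦ ?_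
  exact (tsum_fiber_rpow M n s).symm

theorem tsum_norm_rpow {s : ℝ} (hs : 1 < s) :
    ∑' I : Ideal (𝓞 M), ((absNorm I : ℕ) : ℝ) ^ (-s)
      = ∑' n : ℕ, (idealCount M n : ℝ) * (n : ℝ) ^ (-s) := by
  rw [← (Equiv.sigmaFiberEquiv (fun I : Ideal (𝓞 M) ↦ absNorm I)).tsum_eq]
  have hsum := (Equiv.sigmaFiberEquiv (fun I : Ideal (𝓞 M) ↦ absNorm I)).summable_iff.mpr
    (summable_norm_rpow M hs)
  refine (Summable.tsum_sigma hsum).trans ?_
  exact tsum_congr fun n ↦ tsum_fiber_rpow M n s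

/-- the real Dedekind zeta function, as a sum over all ideals (the zero ideal contributes `0`). -/
noncomputable def zetaR (s : ℝ) : ℝ := ∑' I : Ideal (𝓞 M), ((absNorm I : ℕ) : ℝ) ^ (-s)

theorem ofReal_zetaR {s : ℝ} (hs : 1 < s) : ((zetaR M s : ℝ) : ℂ) = dedekindZeta M s := by
  rw [zetaR, tsum_norm_rpow M hs, dedekindZeta, LSeries, Complex.ofReal_tsum]
  refine tsum_congr fun n ↦ ?_
  rcases Nat.eq_zero_or_pos n with rfl | hn
  · simp [Real.zero_rpow (by linarith : -s ≠ 0)]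
  · rw [LSeries.term_of_ne_zero hn.ne']
    simp only [idealCount]
    rw [Complex.ofReal_mul, Real.rpow_neg (Nat.cast_nonneg _), Complex.ofReal_inv,
      Complex.ofReal_cpow (Nat.cast_nonneg _), div_eq_mul_inv]
    simp

theorem tendsto_sub_one_mul_zetaR :
    Tendsto (fun s : ℝ ↦ (s - 1) * zetaR M s) (𝓝[>] 1) (𝓝 (dedekindZeta_residue M)) := by
  have h := tendsto_sub_one_mul_dedekindZeta_nhdsGT M
  rw [← Filter.tendsto_ofReal_iff]
  refine h.congr' ?_
  filter_upwards [self_mem_nhdsWithin] with s hs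
  rw [← ofReal_zetaR M hs]
  simp

end Fermat.Agent.Cheb
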